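import Fermat.Agent.ExplicitFormula.Psi
import Mathlib.Analysis.SpecialFunctions.JapaneseBracket

/-!
# `ψ` from the first difference of the explicit formula for `ψ₁`

`ψ x - x = -∑ (Z_{x+1}(ρ) - Z_x(ρ)) + O (log x)`, `Z_x(ρ) = x ^ (ρ + 1) / (ρ (ρ + 1))`: the step
`1` costs one jump of `ψ`, and the integral on `re s = -1/2` changes by `O (1)`.
-/

set_option autoImplicit false

noncomputable section

namespace FA.SelbergShort

open Complex MeasureTheory Filter
open FA.ExplicitFormula (zeroTerm explicit_eq exists_left exists_integral_left integrand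
  summable_norm_zeroTerm)
open FA.ZeroFree (psiOne psiOne_sub_bounds ell ell_pos four_le_ell)
open scoped Real Chebyshev ArithmeticFunction.vonMangoldt

theorem psi_add_one_le {x : ℝ} (hx : 0 ≤ x) : ψ (x + 1) ≤ ψ x + ell x := by
  have h : ψ (x + 1) = ψ x + Λ (⌊x⌋₊ + 1) := by
    rw [Chebyshev.psi, Chebyshev.psi, Nat.floor_add_one hx,
      Finset.sum_Ioc_succ_top (Nat.zero_le _)]
  rw [h]
  refine add_le_add le_rfl (ArithmeticFunction.vonMangoldt_le_log.trans ?_)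
  rw [ell, abs_of_nonneg hx]
  refine Real.log_le_log (by positivity) ?_
  push_cast
  linarith [Nat.floor_le hx]

/-- The line `re s = -1/2` under a unit step. -/
theorem exists_left_step : ∃ K, 0 ≤ K ∧ ∀ x : ℝ, 1 ≤ x →
    ‖(∫ t : ℝ, integrand (x + 1) (((-1 / 2 : ℝ) : ℂ) + t * I)) -
      ∫ t : ℝ, integrand x (((-1 / 2 : ℝ) : ℂ) + t * I)‖ ≤ K := by
  obtain ⟨C, hC, hleft⟩ := exists_left
  obtain ⟨C', -, hint⟩ := exists_integral_left
  obtain ⟨K, hK1, hK⟩ := FA.ZeroFree.ell_pow_le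
  obtain ⟨f, hf⟩ : ∃ f : ℝ → ℝ, f = fun t : ℝ => (1 + |t|) ^ (-(13 / 9) : ℝ) := ⟨_, rfl⟩
  have hfi : Integrable f := by
    simpa [hf] using integrable_one_add_norm (E := ℝ) (μ := volume) (r := 13 / 9)
      (by simp; norm_num)
  refine ⟨16 * C * K * ∫ t, f t, mul_nonneg (by positivity) (integral_nonneg fun t =>
    hf ▸ Real.rpow_nonneg (by positivity) _), fun x hx => ?_⟩
  have hx0 : 0 < x := by linarith
  rw [← integral_sub (hint (x + 1) (by linarith)).1 (hint x hx0).1, ← integral_const_mul]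
  refine norm_integral_le_of_norm_le (hfi.const_mul _) (Eventually.of_forall fun t => ?_)
  obtain ⟨s, hs⟩ : ∃ s : ℂ, s = ((-1 / 2 : ℝ) : ℂ) + t * I := ⟨_, rfl⟩
  simp only [← hs]
  have hre : s.re = -1 / 2 := by simp [hs]
  have him : s.im = t := by simp [hs]
  have hre1 : (s + 1).re = 1 / 2 := by rw [add_re, hre, one_re]; norm_num
  obtain ⟨D, hD⟩ : ∃ D, D = ‖((x + 1 : ℝ) : ℂ) ^ (s + 1) - (x : ℂ) ^ (s + 1)‖ := ⟨_, rfl⟩
  have hu0 : 0 < 1 + |t| := by positivity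
  have hsx : 0 < √x := Real.sqrt_pos.2 hx0
  have hD1 : D ≤ 3 * √x := by
    rw [hD]
    refine (norm_sub_le _ _).trans ?_
    rw [norm_cpow_eq_rpow_re_of_pos (by linarith), norm_cpow_eq_rpow_re_of_pos hx0, hre1,
      ← Real.sqrt_eq_rpow, ← Real.sqrt_eq_rpow]
    have : √(x + 1) ≤ 2 * √x := by
      rw [Real.sqrt_le_left (by positivity), mul_pow, Real.sq_sqrt hx0.le]
      linarith
    linarith
  have hD2 : D ≤ (1 + |t|) / √x := by
    have h := (convex_Icc x (x + 1)).norm_image_sub_le_of_norm_hasDerivWithin_le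
      (f := fun u : ℝ => (u : ℂ) ^ (s + 1)) (f' := fun u : ℝ => (s + 1) * (u : ℂ) ^ (s + 1 - 1))
      (C := (1 + |t|) / √x) (fun u hu => (hasDerivAt_ofReal_cpow_const (by linarith [hu.1])
        (fun e => by rw [e] at hre1; norm_num at hre1)).hasDerivWithinAt) (fun u hu => ?_)
      (Set.left_mem_Icc.2 (by linarith)) (Set.right_mem_Icc.2 (by linarith))
    · rw [hD]
      simpa using h
    · rw [norm_mul, norm_cpow_eq_rpow_re_of_pos (by linarith [hu.1]), sub_re, hre1, one_re,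
        show (1 / 2 - 1 : ℝ) = -(1 / 2) by norm_num, Real.rpow_neg (by linarith [hu.1]),
        ← Real.sqrt_eq_rpow, div_eq_mul_inv]
      refine mul_le_mul ?_ (inv_anti₀ hsx (Real.sqrt_le_sqrt hu.1)) (by positivity) (by positivity)
      refine (norm_le_abs_re_add_abs_im _).trans ?_
      rw [hre1, add_im, him, one_im, add_zero]
      norm_num
  have hD3 : D ≤ 2 * √(1 + |t|) := by
    have h := mul_le_mul hD1 hD2 (hD ▸ norm_nonneg _) (by positivity)
    rw [mul_assoc, mul_div_cancel₀ _ hsx.ne'] at h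
    refine le_trans (Real.le_sqrt_of_sq_le (y := 4 * (1 + |t|)) ?_) (le_of_eq ?_)
    · nlinarith
    · rw [Real.sqrt_mul (by norm_num), show (4 : ℝ) = 2 ^ 2 by norm_num, Real.sqrt_sq two_pos.le]
  have hden : (1 + |t|) ^ 2 / 8 ≤ ‖s * (s + 1)‖ := by
    have e1 : ‖s‖ ^ 2 = 1 / 4 + t ^ 2 := by
      rw [Complex.sq_norm, Complex.normSq_apply, hre, him]; ring
    have e2 : ‖s + 1‖ ^ 2 = 1 / 4 + t ^ 2 := by
      rw [Complex.sq_norm, Complex.normSq_apply, hre1, add_im, him]; simp; ring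
    rw [norm_mul, (sq_eq_sq₀ (norm_nonneg _) (norm_nonneg _)).1 (e2.trans e1.symm), ← sq, e1]
    nlinarith [sq_abs t, sq_nonneg (|t| - 1), abs_nonneg t]
  have hell : ell t ≤ K * (1 + |t|) ^ (1 / 18 : ℝ) := by
    refine le_of_pow_le_pow_left₀ (n := 9) (by norm_num) (by positivity) ((hK t).trans ?_)
    rw [mul_pow, ← Real.rpow_mul_natCast hu0.le]
    refine mul_le_mul (le_self_pow₀ hK1 (by norm_num)) ?_ (by positivity) (by positivity)
    refine (Real.rpow_le_rpow (by positivity) (show 1 + t ^ 2 ≤ ((1 + |t|) ^ 2) by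
      nlinarith [sq_abs t, abs_nonneg t]) (by norm_num)).trans (le_of_eq ?_)
    rw [← Real.rpow_natCast_mul hu0.le]
    norm_num
  rw [show integrand (x + 1) s - integrand x s =
      (((x + 1 : ℝ) : ℂ) ^ (s + 1) - (x : ℂ) ^ (s + 1)) / (s * (s + 1)) *
        FA.ExplicitFormula.negLogDeriv s by unfold integrand; ring, norm_mul, norm_div, ← hD]
  have h5 : ‖FA.ExplicitFormula.negLogDeriv s‖ ≤ C * (K * (1 + |t|) ^ (1 / 18 : ℝ)) :=
    hs ▸ (hleft t).trans (mul_le_mul_of_nonneg_left hell hC)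
  refine (mul_le_mul (div_le_div₀ (by positivity) hD3 (by positivity) hden) h5 (norm_nonneg _)
    (by positivity)).trans (le_of_eq ?_)
  rw [hf, div_div_eq_mul_div, Real.sqrt_eq_rpow]
  simp only
  rw [show (-(13 / 9) : ℝ) = 1 / 2 + 1 / 18 + -((2 : ℕ) : ℝ) by norm_num, Real.rpow_add hu0,
    Real.rpow_add hu0, Real.rpow_neg hu0.le, Real.rpow_natCast]
  ring

/-- **`ψ x - x` through the zeros.** -/
theorem exists_psi_explicit : ∃ C, 0 ≤ C ∧ ∀ x : ℝ, 1 ≤ x →
    ‖((ψ x - x : ℝ) : ℂ) + ((∑' ρ, zeroTerm (x + 1) ρ) - ∑' ρ, zeroTerm x ρ)‖ ≤ C * ell x := by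
  obtain ⟨K, hK, hline⟩ := exists_left_step
  obtain ⟨d, hd⟩ : ∃ d : ℂ, d = deriv riemannZeta 0 / riemannZeta 0 := ⟨_, rfl⟩
  refine ⟨2 + K + ‖d‖, by positivity, fun x hx => ?_⟩
  have hx0 : 0 < x := by linarith
  have hb := psiOne_sub_bounds hx0.le (show x ≤ x + 1 by linarith)
  rw [add_sub_cancel_left, one_mul, one_mul] at hb
  have hup := psi_add_one_le hx0.le
  have hl := four_le_ell x
  have e1 := explicit_eq (show 0 < x + 1 by linarith)
  have e0 := explicit_eq hx0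
  rw [← hd] at e1 e0
  obtain ⟨J, hJ⟩ : ∃ J, J = ((∫ t : ℝ, integrand (x + 1) (((-1 / 2 : ℝ) : ℂ) + t * I)) -
      ∫ t : ℝ, integrand x (((-1 / 2 : ℝ) : ℂ) + t * I)) / (2 * π) := ⟨_, rfl⟩
  have hJn : ‖J‖ ≤ K := by
    rw [hJ, norm_div, norm_mul, RCLike.norm_ofNat, Complex.norm_real, Real.norm_eq_abs,
      abs_of_pos Real.pi_pos]
    exact (div_le_self (norm_nonneg _) (by linarith [Real.two_le_pi])).trans (hline x hx)
  have e : ((ψ x - x : ℝ) : ℂ) + ((∑' ρ, zeroTerm (x + 1) ρ) - ∑' ρ, zeroTerm x ρ) =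
      ((ψ x - (psiOne (x + 1) - psiOne x) : ℝ) : ℂ) + 1 / 2 - d + J := by
    rw [hJ, sub_div, ← e1, ← e0]
    push_cast
    ring
  rw [e]
  have h1 : ‖((ψ x - (psiOne (x + 1) - psiOne x) : ℝ) : ℂ)‖ ≤ ell x := by
    rw [Complex.norm_real, Real.norm_eq_abs, abs_le]
    constructor <;> linarith [hb.1, hb.2]
  refine (norm_add_le _ _).trans ((add_le_add ((norm_sub_le _ _).trans (add_le_add
    ((norm_add_le _ _).trans (add_le_add h1 le_rfl)) le_rfl)) hJn).trans ?_)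
  have : ‖(1 / 2 : ℂ)‖ ≤ 1 := by norm_num
  nlinarith [norm_nonneg d, hK]

end FA.SelbergShort

end
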