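import Fermat.Agent.SelbergShort.Variance

/-!
# Primes in almost all very short intervals and the squares of their gaps

From Selberg's variance, all zeros on the critical line: `θ (x + h) - θ x ∼ h` for almost all `x`
as soon as `h / log² x → ∞`, and the gaps up to `x` have square sum `O (x log³ x)`.
-/

set_option autoImplicit false

noncomputable section

namespace FA.SelbergShort

open Finset Filter MeasureTheory
open FA.RiemannMangoldt (xiFn)
open Chebyshev (psi theta)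
open scoped Topology Chebyshev ArithmeticFunction.vonMangoldt

/-- All zeros of `ξ` lie on the critical line. -/
def Critical : Prop := ∀ ρ : ℂ, xiFn ρ = 0 → ρ.re = 1 / 2

/-- `ψ - θ`, the prime powers. -/
def powerPart (x : ℝ) : ℝ := ψ x - θ x

theorem powerPart_mono : Monotone powerPart := fun a b hab => by
  simp only [powerPart, Chebyshev.psi_sub_theta_eq_sum_not_prime]
  exact sum_le_sum_of_subset_of_nonneg
    (filter_subset_filter _ (Ioc_subset_Ioc_right (Nat.floor_mono hab)))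
    fun _ _ _ => ArithmeticFunction.vonMangoldt_nonneg

theorem exists_powerPart_le : ∃ C, 0 ≤ C ∧ ∀ x, powerPart x ≤ C * √x := by
  obtain ⟨C, hC⟩ := Chebyshev.psi_sub_theta_le_mul_sqrt
  exact ⟨max C 0, le_max_right _ _, fun x =>
    (hC x).trans (mul_le_mul_of_nonneg_right (le_max_left _ _) (Real.sqrt_nonneg x))⟩

/-- `θ` is constant where there is no prime. -/
theorem theta_eq_of_no_prime {a b : ℝ} (ha : 0 ≤ a) (hab : a ≤ b)
    (h : ∀ q : ℕ, q.Prime → ¬(a < q ∧ (q : ℝ) ≤ b)) : θ b = θ a := by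
  refine (sum_subset (filter_subset_filter _ (Ioc_subset_Ioc_right (Nat.floor_mono hab)))
    fun q hq hq' => ?_).symm
  rw [mem_filter, Finset.mem_Ioc] at hq hq'
  exact absurd ⟨Nat.lt_of_floor_lt (not_le.1 fun hle => hq' ⟨⟨hq.1.1, hle⟩, hq.2⟩),
    (Nat.le_floor_iff (ha.trans hab)).1 hq.1.2⟩ (h q hq.2)

/-- The prime powers on average. -/
theorem exists_powerPart_gap_le : ∃ C, 0 ≤ C ∧ ∀ X h : ℝ, 0 ≤ h → h ≤ X →
    ∫ x in X..2 * X, (powerPart (x + h) - powerPart x) ≤ C * (h * √X) := by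
  obtain ⟨C, hC, hb⟩ := exists_powerPart_le
  refine ⟨2 * C, by positivity, fun X h hh hhX => ?_⟩
  have hi : ∀ a b : ℝ, IntervalIntegrable powerPart volume a b :=
    fun a b => powerPart_mono.intervalIntegrable
  have hi' : ∀ a b : ℝ, IntervalIntegrable (fun x => powerPart (x + h)) volume a b :=
    fun a b => (powerPart_mono.comp (monotone_id.add_const h)).intervalIntegrable
  rw [intervalIntegral.integral_sub (hi' _ _) (hi _ _),
    intervalIntegral.integral_comp_add_right powerPart h,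
    intervalIntegral.integral_interval_sub_interval_comm (hi _ _) (hi _ _) (hi _ _),
    intervalIntegral.integral_symm X (X + h), intervalIntegral.integral_symm (2 * X) (2 * X + h),
    neg_sub_neg]
  have h0 : 0 ≤ ∫ x in X..X + h, powerPart x :=
    intervalIntegral.integral_nonneg (by linarith) fun x _ =>
      sub_nonneg.2 (Chebyshev.theta_le_psi x)
  have h1 : ∫ x in 2 * X..2 * X + h, powerPart x ≤ h * (C * √(4 * X)) := by
    refine (intervalIntegral.integral_mono_on (by linarith) (hi _ _) intervalIntegrable_const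
      fun x hx => (hb x).trans (mul_le_mul_of_nonneg_left
        (Real.sqrt_le_sqrt (show x ≤ 4 * X by linarith [hx.2])) hC)).trans (le_of_eq ?_)
    rw [intervalIntegral.integral_const, smul_eq_mul, add_sub_cancel_left]
  have h2 : √(4 * X) = 2 * √X := by
    rw [Real.sqrt_mul (by norm_num), show (4 : ℝ) = 2 ^ 2 by norm_num, Real.sqrt_sq two_pos.le]
  rw [h2] at h1
  linarith

/-- Markov's inequality on `[X, 2X]`. -/
theorem mul_measureReal_le {f : ℝ → ℝ} {X t : ℝ} (hX : 0 ≤ X)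
    (hf0 : ∀ x ∈ Set.Icc X (2 * X), 0 ≤ f x)
    (hf : IntervalIntegrable f volume X (2 * X)) :
    t * volume.real {x | x ∈ Set.Icc X (2 * X) ∧ t ≤ f x} ≤ ∫ x in X..2 * X, f x := by
  have hint : IntegrableOn f (Set.Icc X (2 * X)) :=
    (intervalIntegrable_iff_integrableOn_Icc_of_le (by linarith)).1 hf
  rw [intervalIntegral.integral_of_le (by linarith), ← integral_Icc_eq_integral_Ioc]
  have h := mul_meas_ge_le_integral_of_nonneg (μ := volume.restrict (Set.Icc X (2 * X)))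
    ((ae_restrict_mem measurableSet_Icc).mono hf0) hint t
  rwa [measureReal_restrict_apply' measurableSet_Icc, Set.inter_comm] at h

/-- **The exceptional set for `θ`.** -/
theorem exists_theta_exceptional : ∃ C, 0 ≤ C ∧ (Critical → ∀ X h ε : ℝ, 2 ≤ X → 1 ≤ h → h ≤ X →
    0 < ε → volume.real {x | x ∈ Set.Icc X (2 * X) ∧ ε * h < |θ (x + h) - θ x - h|} ≤
      C * (X * Real.log X ^ 2 / (ε ^ 2 * h) + √X / ε)) := by
  obtain ⟨C₁, hC₁, hvar⟩ := exists_psi_variance
  obtain ⟨C₂, hC₂, hpow⟩ := exists_powerPart_gap_le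
  refine ⟨4 * C₁ + 2 * C₂, by positivity, fun hre X h ε hX hh hhX hε => ?_⟩
  have hX0 : 0 ≤ X := by linarith
  obtain ⟨A, hA⟩ : ∃ A, A = {x | x ∈ Set.Icc X (2 * X) ∧
      (ε * h / 2) ^ 2 ≤ (ψ (x + h) - ψ x - h) ^ 2} := ⟨_, rfl⟩
  obtain ⟨B, hB⟩ : ∃ B, B = {x | x ∈ Set.Icc X (2 * X) ∧
      ε * h / 2 ≤ powerPart (x + h) - powerPart x} := ⟨_, rfl⟩
  have hsub : {x | x ∈ Set.Icc X (2 * X) ∧ ε * h < |θ (x + h) - θ x - h|} ⊆ A ∪ B := by
    rintro x ⟨hx, hlt⟩
    by_contra hno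
    simp only [hA, hB, Set.mem_union, Set.mem_ofPred_eq, hx, true_and, not_or, not_le] at hno
    have h1 := abs_lt_of_sq_lt_sq hno.1 (by positivity)
    have h2 := powerPart_mono (show x ≤ x + h by linarith)
    rw [show θ (x + h) - θ x - h = (ψ (x + h) - ψ x - h) - (powerPart (x + h) - powerPart x) by
      simp only [powerPart]; ring] at hlt
    have h3 := (abs_sub _ _).trans' hlt.le
    rw [abs_of_nonneg (sub_nonneg.2 h2)] at h3
    linarith [hno.2]
  have hAf : volume A ≠ ⊤ :=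
    measure_ne_top_of_subset (fun x hx => by rw [hA] at hx; exact hx.1) measure_Icc_lt_top.ne
  have hBf : volume B ≠ ⊤ :=
    measure_ne_top_of_subset (fun x hx => by rw [hB] at hx; exact hx.1) measure_Icc_lt_top.ne
  refine ((measureReal_mono hsub (measure_union_ne_top hAf hBf)).trans
    (measureReal_union_le _ _)).trans ?_
  have hA' := (mul_measureReal_le (t := (ε * h / 2) ^ 2) hX0 (fun x _ => sq_nonneg _)
    (intervalIntegrable_psi_gap h X (2 * X))).trans (hvar hre X h hX hh hhX)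
  have hB' := (mul_measureReal_le (t := ε * h / 2) (f := fun x => powerPart (x + h) - powerPart x)
    hX0 (fun x _ => sub_nonneg.2 (powerPart_mono (by linarith)))
    (((powerPart_mono.comp (monotone_id.add_const h)).intervalIntegrable).sub
      powerPart_mono.intervalIntegrable)).trans (hpow X h (by linarith) hhX)
  rw [← hA] at hA'
  rw [← hB] at hB'
  have hh0 : 0 < h := by linarith
  rw [← le_div_iff₀' (by positivity)] at hA' hB'
  refine (add_le_add hA' hB').trans ?_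
  rw [show C₁ * (h * X * Real.log X ^ 2) / (ε * h / 2) ^ 2 =
      4 * C₁ * (X * Real.log X ^ 2 / (ε ^ 2 * h)) by field_simp; ring,
    show C₂ * (h * √X) / (ε * h / 2) = 2 * C₂ * (√X / ε) by field_simp,
    add_mul, mul_add, mul_add]
  have : 0 ≤ X * Real.log X ^ 2 / (ε ^ 2 * h) := by positivity
  have : 0 ≤ √X / ε := by positivity
  nlinarith

/-- **`θ (x + h) - θ x ∼ h` for almost all `x` once `h / log² X` is large.** -/
theorem theta_almost (hre : Critical) {ε η : ℝ} (hε : 0 < ε) (hη : 0 < η) :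
    ∃ K : ℝ, ∀ᶠ X in atTop, ∀ h : ℝ, K * Real.log X ^ 2 ≤ h → h ≤ X →
      volume.real {x | x ∈ Set.Icc X (2 * X) ∧ ε * h < |θ (x + h) - θ x - h|} ≤ η * X := by
  obtain ⟨C, hC, hexc⟩ := exists_theta_exceptional
  refine ⟨max 1 (2 * C / (η * ε ^ 2)), ?_⟩
  filter_upwards [eventually_ge_atTop (max 3 ((2 * C / (η * ε)) ^ 2))] with X hX h hK hhX
  have hX3 : 3 ≤ X := (le_max_left _ _).trans hX
  have hX0 : 0 < X := by linarith
  have hL : 1 ≤ Real.log X := by
    rw [Real.le_log_iff_exp_le hX0]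
    linarith [Real.exp_one_lt_three]
  have hL2 : 1 ≤ Real.log X ^ 2 := one_le_pow₀ hL
  have hh : 1 ≤ h := le_trans (one_le_mul_of_one_le_of_one_le (le_max_left _ _) hL2) hK
  refine (hexc hre X h ε (by linarith) hh hhX hε).trans ?_
  have h1 : 2 * C * Real.log X ^ 2 ≤ η * ε ^ 2 * h := by
    have h2 := (mul_le_mul_of_nonneg_right (le_max_right 1 (2 * C / (η * ε ^ 2)))
      (by positivity)).trans hK
    rw [div_mul_eq_mul_div, div_le_iff₀ (by positivity)] at h2
    linarith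
  have h3 : 2 * C ≤ η * ε * √X := by
    have h2 := Real.sqrt_le_sqrt ((le_max_right _ _).trans hX)
    rw [Real.sqrt_sq (by positivity), div_le_iff₀ (by positivity)] at h2
    linarith
  have h4 : C * (X * Real.log X ^ 2 / (ε ^ 2 * h)) ≤ η * X / 2 := by
    rw [mul_div_assoc', div_le_iff₀ (by positivity)]
    nlinarith [mul_le_mul_of_nonneg_left h1 hX0.le]
  have h5 : C * (√X / ε) ≤ η * X / 2 := by
    rw [mul_div_assoc', div_le_iff₀ hε]
    have h6 := mul_le_mul_of_nonneg_right h3 (Real.sqrt_nonneg X)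
    rw [mul_assoc _ √X √X, Real.mul_self_sqrt hX0.le] at h6
    linarith
  rw [mul_add]
  linarith

/-- **A prime in almost every interval `(x, x + f x log² x]` when `f → ∞`.** -/
theorem prime_almost_every (hre : Critical) {f : ℝ → ℝ} (hf : Tendsto f atTop atTop) {η : ℝ}
    (hη : 0 < η) :
    ∀ᶠ X in atTop, volume.real {x : ℝ | x ∈ Set.Icc X (2 * X) ∧
      ∀ p : ℕ, p.Prime → ¬(x < p ∧ (p : ℝ) ≤ x + f x * Real.log x ^ 2)} ≤ η * X := by
  obtain ⟨K, hK⟩ := theta_almost hre (show (0 : ℝ) < 1 / 2 by norm_num) hη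
  obtain ⟨K', hK'⟩ : ∃ K', K' = max K 1 := ⟨_, rfl⟩
  obtain ⟨x₀, hx₀⟩ := eventually_atTop.1 (hf.eventually_ge_atTop K')
  filter_upwards [hK, eventually_ge_atTop (max x₀ 3),
    (Real.isLittleO_pow_log_id_atTop (n := 2)).def (show 0 < 1 / K' by
      rw [hK']; positivity)] with X hX hX₀ hlog
  have hX3 : 3 ≤ X := (le_max_right _ _).trans hX₀
  have hX0 : 0 < X := by linarith
  have hK0 : 0 < K' := hK' ▸ lt_max_of_lt_right one_pos
  obtain ⟨h, hh⟩ : ∃ h, h = K' * Real.log X ^ 2 := ⟨_, rfl⟩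
  have hL : 0 < Real.log X := Real.log_pos (by linarith)
  have hhX : h ≤ X := by
    rw [Real.norm_of_nonneg (sq_nonneg _), id_eq, Real.norm_of_nonneg hX0.le, one_div_mul_eq_div,
      le_div_iff₀' hK0] at hlog
    rwa [hh]
  have hh0 : 0 < h := hh ▸ mul_pos hK0 (pow_pos hL 2)
  refine le_trans (measureReal_mono (fun x hx => ?_) (measure_ne_top_of_subset
    (fun x hx => hx.1) measure_Icc_lt_top.ne)) (hX h ?_ hhX)
  · obtain ⟨hx, hno⟩ := hx
    refine ⟨hx, ?_⟩
    have hfx : h ≤ f x * Real.log x ^ 2 := by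
      rw [hh]
      exact mul_le_mul (hx₀ x (((le_max_left _ _).trans hX₀).trans hx.1))
        (pow_le_pow_left₀ hL.le (Real.log_le_log hX0 hx.1) 2) (sq_nonneg _)
        (hK0.le.trans (hx₀ x (((le_max_left _ _).trans hX₀).trans hx.1)))
    rw [theta_eq_of_no_prime (by linarith [hx.1]) (by linarith : x ≤ x + h)
      fun q hq hq' => hno q hq ⟨hq'.1, by linarith [hq'.2]⟩, sub_self, zero_sub, abs_neg,
      abs_of_pos hh0]
    linarith
  · rw [hh, hK']
    exact mul_le_mul_of_nonneg_right (le_max_left _ _) (sq_nonneg _)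

/-- The `n`th gap. -/
def primeGap (n : ℕ) : ℕ := Nat.nth Nat.Prime (n + 1) - Nat.nth Nat.Prime n

/-- **The squares of the gaps.** -/
theorem exists_gap_sq_sum : ∃ C, 0 ≤ C ∧ (Critical → ∀ x : ℝ, 2 ≤ x →
    ∑ n ∈ range (Nat.primeCounting ⌊x⌋₊), (primeGap n : ℝ) ^ 2 ≤ C * (x * Real.log x ^ 3)) := by
  obtain ⟨Cv, hCv, hvar⟩ := exists_psi_variance
  obtain ⟨Cp, hCp, hpow⟩ := exists_powerPart_le
  by_cases hre : Critical
  swap
  · exact ⟨0, le_rfl, fun h => absurd h hre⟩
  obtain ⟨Cg, hCg, hgap⟩ := FA.ExplicitFormula.exists_prime_between (β := 1 / 2) le_rfl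
    (by norm_num) fun ρ hρ => (hre ρ hρ).le
  refine ⟨64 + 128 * (Cg * Cp) + 8000000 * Cv, by positivity, fun _ x hx => ?_⟩
  have hx0 : 0 < x := by linarith
  obtain ⟨M, hM⟩ : ∃ M, M = Nat.primeCounting ⌊x⌋₊ := ⟨_, rfl⟩
  rw [← hM]
  obtain ⟨p, hp⟩ : ∃ p : ℕ → ℕ, p = fun n => Nat.nth Nat.Prime n := ⟨_, rfl⟩
  have hinf := Nat.infinite_setOfPred_prime
  have hmono : StrictMono p := by rw [hp]; exact Nat.nth_strictMono hinf
  have hprime : ∀ n, (p n).Prime := fun n => by rw [hp]; exact Nat.nth_mem_of_infinite hinf n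
  have hnext : ∀ n q : ℕ, q.Prime → p n < q → p (n + 1) ≤ q := fun n q hq h => by
    obtain ⟨m, rfl⟩ : ∃ m, p m = q :=
      ⟨Nat.count Nat.Prime q, by simp only [hp]; exact Nat.nth_count hq⟩
    exact hmono.monotone (hmono.lt_iff_lt.1 h)
  have hgadd : ∀ n, p n + primeGap n = p (n + 1) := fun n => by
    have := hmono.monotone (Nat.le_add_right n 1)
    simp only [primeGap, hp] at this ⊢
    omega
  have hgp : ∀ n, primeGap n ≤ p n := fun n => by
    obtain ⟨q, hq, hq1, hq2⟩ := Nat.exists_prime_lt_and_le_two_mul (p n) (hprime n).ne_zero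
    have := hnext n q hq hq1
    have := hgadd n
    omega
  have hpx : ∀ n ∈ range M, (p n : ℝ) ≤ x := fun n hn => by
    have h1 := Nat.nth_lt_of_lt_count (p := Nat.Prime) (hM ▸ mem_range.1 hn)
    rw [hp]
    exact le_trans (by exact_mod_cast Nat.lt_succ_iff.1 h1) (Nat.floor_le hx0.le)
  obtain ⟨L, hL⟩ : ∃ L, L = Real.log x := ⟨_, rfl⟩
  have hL0 : 0 < L := hL ▸ Real.log_pos (by linarith)
  have hL2 : 1 / 2 ≤ L := by
    have := Real.log_le_log two_pos hx
    linarith [Real.log_two_gt_d9]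
  rw [← hL]
  have hsumgap : ∑ n ∈ range M, (primeGap n : ℝ) ≤ 2 * x := by
    have e : ∑ n ∈ range M, ((p (n + 1) : ℝ) - p n) = (p M : ℝ) - p 0 :=
      sum_range_sub (fun n => (p n : ℝ)) M
    have e' : ∀ n, (primeGap n : ℝ) = (p (n + 1) : ℝ) - p n := fun n => by
      rw [← hgadd n]; push_cast; ring
    simp only [e']
    rw [e]
    rcases Nat.eq_zero_or_pos M with h0 | h0
    · simp [h0, hx0.le]
    · obtain ⟨m, rfl⟩ : ∃ m, M = m + 1 := ⟨M - 1, by omega⟩
      have h1 : (p (m + 1) : ℝ) ≤ 2 * p m := by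
        have := hgp m
        have := hgadd m
        exact_mod_cast (show p (m + 1) ≤ 2 * p m by omega)
      linarith [hpx m (by simp), Nat.cast_nonneg (α := ℝ) (p 0)]
  have hgap' : ∀ n ∈ range M, (primeGap n : ℝ) ≤ Cg * (√x * L ^ 2) := fun n hn => by
    have hp2 : (2 : ℝ) ≤ p n := Nat.ofNat_le_cast.2 (hprime n).two_le
    obtain ⟨q, hq, hq1, hq2⟩ := hgap (p n) hp2
    have h1 : ((p (n + 1) : ℕ) : ℝ) ≤ q := Nat.cast_le.2 (hnext n q hq (Nat.cast_lt.1 hq1))
    rw [← hgadd n] at h1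
    push_cast at h1
    refine le_trans (show (primeGap n : ℝ) ≤ Cg * ((p n : ℝ) ^ (1 / 2 : ℝ) * Real.log (p n) ^ 2) by
      linarith) (mul_le_mul_of_nonneg_left ?_ hCg.le)
    rw [← Real.sqrt_eq_rpow]
    exact mul_le_mul (Real.sqrt_le_sqrt (hpx n hn))
      (pow_le_pow_left₀ (Real.log_nonneg (by linarith))
        (hL ▸ Real.log_le_log (by linarith) (hpx n hn)) 2) (sq_nonneg _) (Real.sqrt_nonneg _)
  obtain ⟨W, hW⟩ : ∃ W : ℕ → ℝ, W = fun n => powerPart (p (n + 1)) - powerPart (p n) := ⟨_, rfl⟩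
  have hW0 : ∀ n, 0 ≤ W n := fun n =>
    hW ▸ sub_nonneg.2 (powerPart_mono (Nat.cast_le.2 (hmono.monotone n.le_succ)))
  have hsumW : ∑ n ∈ range M, W n ≤ Cp * (2 * √x) := by
    simp only [hW]
    rw [sum_range_sub (fun n => powerPart (p n)) M]
    have h0 : 0 ≤ powerPart (p 0) := sub_nonneg.2 (Chebyshev.theta_le_psi _)
    rcases Nat.eq_zero_or_pos M with h0' | h0'
    · simp [h0']; positivity
    · obtain ⟨m, rfl⟩ : ∃ m, M = m + 1 := ⟨M - 1, by omega⟩
      have h1 : (p (m + 1) : ℝ) ≤ 4 * x := by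
        have := hgp m
        have := hgadd m
        have h2 : (p (m + 1) : ℝ) ≤ 2 * p m := by
          exact_mod_cast (show p (m + 1) ≤ 2 * p m by omega)
        linarith [hpx m (by simp)]
      have h2 := (hpow (p (m + 1))).trans (mul_le_mul_of_nonneg_left (Real.sqrt_le_sqrt h1) hCp)
      rw [Real.sqrt_mul (by norm_num), show (4 : ℝ) = 2 ^ 2 by norm_num,
        Real.sqrt_sq two_pos.le] at h2
      linarith
  obtain ⟨S, hS⟩ : ∃ S, S = (range M).filter fun n => 4 ≤ primeGap n ∧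
      32 * W n < (primeGap n : ℝ) := ⟨_, rfl⟩
  have hsplit : ∀ n ∈ range M, (primeGap n : ℝ) ^ 2 ≤ 4 * (primeGap n : ℝ) +
      32 * (Cg * (√x * L ^ 2)) * W n + if n ∈ S then (primeGap n : ℝ) ^ 2 else 0 := fun n hn => by
    have hgn : (0 : ℝ) ≤ primeGap n := Nat.cast_nonneg _
    have hw := mul_nonneg (mul_nonneg (by norm_num : (0 : ℝ) ≤ 32)
      (show 0 ≤ Cg * (√x * L ^ 2) by positivity)) (hW0 n)
    split_ifs with h
    · linarith
    rcases lt_or_ge (primeGap n) 4 with h4 | h4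
    · have : (primeGap n : ℝ) ≤ 4 := by exact_mod_cast h4.le
      nlinarith
    · simp only [hS, mem_filter, not_and, not_lt] at h
      nlinarith [h hn h4, hgap' n hn, hW0 n]
  refine (sum_le_sum hsplit).trans ?_
  rw [sum_add_distrib, sum_add_distrib, ← mul_sum, ← mul_sum, sum_ite_mem]
  have hS' : range M ∩ S = S := inter_eq_right.2 (hS ▸ filter_subset _ _)
  rw [hS']
  -- the dyadic classes
  obtain ⟨J, hJ⟩ : ∃ J, J = Nat.log 2 ⌊x⌋₊ + 1 := ⟨_, rfl⟩
  have hJL : (J : ℝ) ≤ 4 * L := by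
    have h0 : (2 : ℕ) ≤ ⌊x⌋₊ := Nat.le_floor (by exact_mod_cast hx)
    have h1 : ((2 ^ Nat.log 2 ⌊x⌋₊ : ℕ) : ℝ) ≤ x :=
      (Nat.cast_le.2 (Nat.pow_log_le_self 2 (by omega))).trans (Nat.floor_le hx0.le)
    push_cast at h1
    have h2 := Real.log_le_log (by positivity) h1
    rw [Real.log_pow, ← hL] at h2
    have h3 := mul_le_mul_of_nonneg_left (show (2 / 3 : ℝ) ≤ Real.log 2 by
      linarith [Real.log_two_gt_d9]) (Nat.cast_nonneg (α := ℝ) (Nat.log 2 ⌊x⌋₊))
    rw [hJ]
    push_cast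
    linarith
  have hmaps : ∀ n ∈ S, (Nat.log 2 (p n), Nat.log 2 (primeGap n / 4)) ∈ range J ×ˢ range J :=
    fun n hn => by
    have hnM : n ∈ range M := (mem_filter.1 (hS ▸ hn)).1
    have h1 : p n ≤ ⌊x⌋₊ := Nat.le_floor (hpx n hnM)
    simp only [mem_product, mem_range, hJ, Nat.lt_add_one_iff]
    exact ⟨Nat.log_mono_right h1,
      Nat.log_mono_right ((Nat.div_le_self _ _).trans ((hgp n).trans h1))⟩
  have hclass : ∀ i j : ℕ, i < J → ∑ n ∈ S.filter (fun n =>
      (Nat.log 2 (p n), Nat.log 2 (primeGap n / 4)) = (i, j)), (primeGap n : ℝ) ^ 2 ≤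
        4000 * Cv * (2 ^ i * (49 * L ^ 2)) := by
    intro i j hiJ
    obtain ⟨E, hE⟩ : ∃ E, E = S.filter (fun n =>
      (Nat.log 2 (p n), Nat.log 2 (primeGap n / 4)) = (i, j)) := ⟨_, rfl⟩
    rw [← hE]
    rcases E.eq_empty_or_nonempty with h0 | ⟨n₀, hn₀⟩
    · rw [h0, sum_empty]; positivity
    obtain ⟨Y, hY⟩ : ∃ Y : ℝ, Y = 2 ^ i := ⟨_, rfl⟩
    obtain ⟨H, hH⟩ : ∃ H : ℝ, H = 2 ^ j := ⟨_, rfl⟩
    have hEv : ∀ n ∈ E, n ∈ range M ∧ Y ≤ p n ∧ (p n : ℝ) ≤ 2 * Y ∧ 4 * H ≤ primeGap n ∧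
        (primeGap n : ℝ) ≤ 8 * H ∧ 32 * W n < primeGap n := fun n hn => by
      rw [hE, mem_filter, hS, mem_filter, Prod.mk.injEq] at hn
      obtain ⟨⟨hnM, h4, hWn⟩, hi, hj⟩ := hn
      have hg0 : primeGap n / 4 ≠ 0 := by omega
      have a1 := Nat.pow_log_le_self 2 (hprime n).ne_zero
      have a2 := Nat.lt_pow_succ_log_self one_lt_two (p n)
      have b1 := Nat.pow_log_le_self 2 hg0
      have b2 := Nat.lt_pow_succ_log_self one_lt_two (primeGap n / 4)
      rw [hi] at a1 a2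
      rw [hj] at b1 b2
      rw [pow_succ] at a2 b2
      have b1' : 4 * 2 ^ j ≤ primeGap n := by omega
      have b2' : primeGap n ≤ 8 * 2 ^ j := by omega
      refine ⟨hnM, ?_, ?_, ?_, ?_, hWn⟩
      · rw [hY]; exact_mod_cast a1
      · rw [hY, mul_comm]; exact_mod_cast a2.le
      · rw [hH]; exact_mod_cast b1'
      · rw [hH]; exact_mod_cast b2'
    obtain ⟨hn₀M, hn1, hn2, hn3, hn4, -⟩ := hEv n₀ hn₀
    have hH1 : 1 ≤ H := hH ▸ one_le_pow₀ one_le_two
    have hHY : 2 * H ≤ Y := by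
      have : (primeGap n₀ : ℝ) ≤ p n₀ := Nat.cast_le.2 (hgp n₀)
      linarith
    have hY2 : 2 ≤ Y := by linarith
    have hY1 : 1 ≤ i := by
      by_contra h
      rw [show i = 0 by omega, pow_zero] at hY
      linarith
    have hYx : Y ≤ x := hn1.trans (hpx n₀ hn₀M)
    have hlY : ∀ Z, Y ≤ Z → Z ≤ 2 * x → Real.log Z ^ 2 ≤ 49 * L ^ 2 := fun Z h1 h2 => by
      have h3 : Real.log Z ≤ 7 * L := by
        refine (Real.log_le_log (by linarith) h2).trans ?_
        rw [Real.log_mul two_ne_zero hx0.ne', hL]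
        linarith [Real.log_le_log two_pos hx]
      refine (pow_le_pow_left₀ (Real.log_nonneg (by linarith)) h3 2).trans (le_of_eq (by ring))
    obtain ⟨f, hf⟩ : ∃ f : ℝ → ℝ, f = fun t => (ψ (t + H) - ψ t - H) ^ 2 := ⟨_, rfl⟩
    have hfi : ∀ a b, IntervalIntegrable f volume a b := hf ▸ intervalIntegrable_psi_gap H
    have htot : ∫ t in Y..4 * Y, f t ≤ 3 * Cv * (H * Y * (49 * L ^ 2)) := by
      rw [← intervalIntegral.integral_add_adjacent_intervals (hfi Y (2 * Y)) (hfi (2 * Y) (4 * Y))]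
      have v1 := hvar hre Y H hY2 hH1 (by linarith)
      have v2 := hvar hre (2 * Y) H (by linarith) hH1 (by linarith)
      rw [show 2 * (2 * Y) = 4 * Y by ring] at v2
      simp only [hf]
      have c1 := mul_le_mul_of_nonneg_left (hlY Y le_rfl (by linarith))
        (show 0 ≤ Cv * (H * Y) by positivity)
      have c2 := mul_le_mul_of_nonneg_left (hlY (2 * Y) (by linarith) (by linarith))
        (show 0 ≤ Cv * (H * (2 * Y)) by positivity)
      linarith
    -- each gap holds an interval of length `2 H`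
    have hlow : ∀ n ∈ E, ∀ t ∈ Set.Icc (p n : ℝ) (p n + 2 * H), H ^ 2 / 4 ≤ f t :=
        fun n hn t ht => by
      obtain ⟨-, -, -, a3, a4, a5⟩ := hEv n hn
      have hend : (p n : ℝ) + primeGap n = p (n + 1) := by exact_mod_cast hgadd n
      have hth : θ (t + H) = θ t := theta_eq_of_no_prime
        ((Nat.cast_nonneg _).trans ht.1) (by linarith) fun q hq hq' => by
          have h1 : p n < q := by exact_mod_cast ht.1.trans_lt hq'.1
          have h2 : (p (n + 1) : ℝ) ≤ q := Nat.cast_le.2 (hnext n q hq h1)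
          linarith [hq'.2, ht.2]
      have hP : powerPart (t + H) - powerPart t ≤ W n := by
        simp only [hW]
        exact sub_le_sub (powerPart_mono (by linarith [ht.2])) (powerPart_mono ht.1)
      simp only [powerPart, hth] at hP
      have hneg : ψ (t + H) - ψ t - H ≤ -(H / 2) := by linarith [hW0 n]
      simp only [hf]
      nlinarith
    obtain ⟨A, hA⟩ : ∃ A : ℕ → Set ℝ, A = fun n => Set.Ico (p n : ℝ) (p n + 2 * H) := ⟨_, rfl⟩
    have hdisj : (E : Set ℕ).PairwiseDisjoint A := by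
      have key : ∀ a b : ℕ, a ∈ E → a < b → Disjoint (A a) (A b) := fun a b ha h => by
        refine Set.disjoint_left.2 fun t h1 h2 => ?_
        obtain ⟨-, -, -, a3, -, -⟩ := hEv a ha
        have h3 : (p (a + 1) : ℝ) ≤ p b := Nat.cast_le.2 (hmono.monotone h)
        have hend : (p a : ℝ) + primeGap a = p (a + 1) := by exact_mod_cast hgadd a
        simp only [hA, Set.mem_Ico] at h1 h2
        linarith [h1.2, h2.1]
      intro a ha b hb hab
      rcases lt_or_gt_of_ne hab with h | h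
      · exact key a b ha h
      · exact (key b a hb h).symm
    have hAsub : ∀ n ∈ E, A n ⊆ Set.Icc Y (4 * Y) := fun n hn t ht => by
      obtain ⟨-, a1, a2, -, -, -⟩ := hEv n hn
      simp only [hA, Set.mem_Ico] at ht
      exact ⟨by linarith [ht.1], by linarith [ht.2]⟩
    have hint : IntegrableOn f (Set.Icc Y (4 * Y)) :=
      (intervalIntegrable_iff_integrableOn_Icc_of_le (by linarith)).1 (hfi Y (4 * Y))
    have hcount : (E.card : ℝ) * (H ^ 3 / 2) ≤ ∫ t in Y..4 * Y, f t := by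
      rw [intervalIntegral.integral_of_le (by linarith), ← integral_Icc_eq_integral_Ioc]
      calc (E.card : ℝ) * (H ^ 3 / 2) = ∑ n ∈ E, ∫ t in A n, H ^ 2 / 4 := by
            have e : ∀ n ∈ E, ∫ t in A n, H ^ 2 / 4 = H ^ 3 / 2 := fun n _ => by
              rw [setIntegral_const, hA, smul_eq_mul, Real.volume_real_Ico_of_le (by linarith)]
              ring
            rw [sum_congr rfl e, sum_const, nsmul_eq_mul]
        _ ≤ ∑ n ∈ E, ∫ t in A n, f t := sum_le_sum fun n hn =>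
            setIntegral_mono_on (integrableOn_const (hA ▸ measure_Ico_lt_top.ne))
              (hint.mono_set (hAsub n hn)) (hA ▸ measurableSet_Ico) fun t ht => by
              simp only [hA, Set.mem_Ico] at ht
              exact hlow n hn t ⟨ht.1, ht.2.le⟩
        _ = ∫ t in ⋃ n ∈ E, A n, f t := (integral_biUnion_finset E
            (fun n _ => hA ▸ measurableSet_Ico) hdisj fun n hn => hint.mono_set (hAsub n hn)).symm
        _ ≤ _ := setIntegral_mono_set hint
            (Eventually.of_forall fun t => hf ▸ sq_nonneg _)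
            (LE.le.eventuallyLE (Set.iUnion₂_subset hAsub))
    refine (sum_le_card_nsmul _ _ (64 * H ^ 2) fun n hn => ?_).trans ?_
    · obtain ⟨-, -, -, -, a4, -⟩ := hEv n hn
      calc (primeGap n : ℝ) ^ 2 ≤ (8 * H) ^ 2 := pow_le_pow_left₀ (Nat.cast_nonneg _) a4 2
        _ = _ := by ring
    rw [nsmul_eq_mul, ← hY]
    have h1 := hcount.trans htot
    have hH0 : 0 < H := by linarith
    have h2 : (E.card : ℝ) * H ^ 2 ≤ 6 * Cv * (Y * (49 * L ^ 2)) :=
      le_of_mul_le_mul_right (by linarith) hH0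
    nlinarith [show 0 ≤ Cv * (Y * (49 * L ^ 2)) by positivity]
  have hSsum : ∑ n ∈ S, (primeGap n : ℝ) ^ 2 ≤ 8000000 / 2 * Cv * (x * L ^ 3) := by
    rw [← sum_fiberwise_of_maps_to hmaps, sum_product]
    refine (sum_le_sum fun i hi => sum_le_sum fun j _ => hclass i j (mem_range.1 hi)).trans ?_
    simp only [sum_const, card_range, nsmul_eq_mul, ← mul_sum, ← sum_mul]
    have h1 : ∑ i ∈ range J, (2 : ℝ) ^ i ≤ 2 * x := by
      have h2 := geom_sum_mul (2 : ℝ) J
      have h3 : ((2 ^ Nat.log 2 ⌊x⌋₊ : ℕ) : ℝ) ≤ x := by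
        refine (Nat.cast_le.2 (Nat.pow_log_le_self 2 ?_)).trans (Nat.floor_le hx0.le)
        have : (2 : ℕ) ≤ ⌊x⌋₊ := Nat.le_floor (by exact_mod_cast hx)
        omega
      push_cast at h3
      rw [hJ, pow_succ] at h2
      rw [hJ]
      linarith
    calc (J : ℝ) * (4000 * Cv * ((∑ i ∈ range J, (2 : ℝ) ^ i) * (49 * L ^ 2)))
        ≤ 4 * L * (4000 * Cv * (2 * x * (49 * L ^ 2))) := by gcongr
      _ = 1568000 * Cv * (x * L ^ 3) := by ring
      _ ≤ _ := by gcongr; norm_num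
  have hB : 32 * (Cg * (√x * L ^ 2)) * ∑ n ∈ range M, W n ≤ 64 * (Cg * Cp) * (x * L ^ 2) := by
    refine (mul_le_mul_of_nonneg_left hsumW (by positivity)).trans (le_of_eq ?_)
    nth_rw 3 [← Real.mul_self_sqrt hx0.le]
    ring
  have e2 : x * L ^ 2 ≤ 2 * (x * L ^ 3) := by
    nlinarith [mul_le_mul_of_nonneg_left hL2 (show 0 ≤ x * L ^ 2 by positivity)]
  have e1 : x ≤ 8 * (x * L ^ 3) := by
    have : (1 / 2 : ℝ) ^ 3 ≤ L ^ 3 := pow_le_pow_left₀ (by norm_num) hL2 3
    nlinarith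
  have e3 : 0 ≤ Cv * (x * L ^ 3) := by positivity
  have e4 := mul_le_mul_of_nonneg_left e2 (show 0 ≤ 64 * (Cg * Cp) by positivity)
  have e5 : 0 ≤ x * L ^ 3 := by positivity
  nlinarith [hsumgap]

end FA.SelbergShort

end
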