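import Fermat.Agent.ExplicitFormula.Zeros
import Mathlib.Analysis.SpecialFunctions.Integrals.Basic
import Mathlib.Analysis.SpecialFunctions.Pow.Deriv
import Mathlib.Analysis.PSeries

/-!
# Mean squares of sums over zeros of real part `1/2`

With a weight vanishing at the ends of a logarithmic interval the correlation of two zeros decays
like `(1 + |γ - γ'|) ^ (-2)`, so `∫_X^{4X} |∑ c(ρ) x ^ (ρ + m)|² ≪ X ^ (2 + 2 m) log R ∑ |c(ρ)|²`
for zeros up to height `R` with real part `1/2`.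
-/

set_option autoImplicit false

noncomputable section

namespace FA.SelbergShort

open Finset Complex Filter MeasureTheory
open FA.RiemannMangoldt (xiFn)
open FA.ExplicitFormula (zeroWeight)
open FA.ZeroFree (ell ell_mono four_le_ell ell_pos)
open scoped Real Topology

/-- `∫_{-2}^2 (1 - (y/2)²) e^(z y)`. -/
def tentKer (z : ℂ) : ℂ := ∫ y in (-2 : ℝ)..2, (1 - ((y : ℂ) / 2) ^ 2) * cexp (z * y)

theorem tent_nonneg {y : ℝ} (hy : y ∈ Set.Icc (-2 : ℝ) 2) : 0 ≤ 1 - (y / 2) ^ 2 := by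
  nlinarith [hy.1, hy.2]

theorem exists_tentKer_le (A : ℝ) :
    ∃ K, 0 ≤ K ∧ ∀ z : ℂ, |z.re| ≤ A → ‖tentKer z‖ ≤ K * (1 / (1 + |z.im|) ^ 2) := by
  obtain ⟨E, hE⟩ : ∃ E, E = Real.exp (2 * |A|) := ⟨_, rfl⟩
  have hE0 : 0 < E := hE ▸ Real.exp_pos _
  refine ⟨16 * E, by positivity, fun z hz => ?_⟩
  have hexp : ∀ y : ℝ, |y| ≤ 2 → ‖cexp (z * y)‖ ≤ E := fun y hy => by
    rw [Complex.norm_exp, hE, mul_re, ofReal_re, ofReal_im, mul_zero, sub_zero]
    refine Real.exp_le_exp.2 ((le_abs_self _).trans ?_)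
    rw [abs_mul]
    nlinarith [abs_nonneg A, le_abs_self A, abs_nonneg z.re, abs_nonneg y]
  rcases le_or_gt |z.im| 1 with h | h
  · have h1 : ‖tentKer z‖ ≤ E * |(2 : ℝ) - -2| := by
      refine intervalIntegral.norm_integral_le_of_norm_le_const fun y hy => ?_
      rw [Set.uIoc_of_le (by norm_num)] at hy
      have hy2 : |y| ≤ 2 := abs_le.2 ⟨hy.1.le, hy.2⟩
      rw [norm_mul,
        show (1 : ℂ) - ((y : ℂ) / 2) ^ 2 = ((1 - (y / 2) ^ 2 : ℝ) : ℂ) by push_cast; rfl,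
        Complex.norm_real, Real.norm_of_nonneg (tent_nonneg (abs_le.1 hy2))]
      refine (mul_le_of_le_one_left (norm_nonneg _) ?_).trans (hexp y hy2)
      nlinarith
    refine h1.trans ?_
    rw [mul_one_div, le_div_iff₀ (by positivity)]
    norm_num
    nlinarith [abs_nonneg z.im,
      pow_le_pow_left₀ (by positivity) (show 1 + |z.im| ≤ 2 by linarith) 2]
  · have hn : |z.im| ≤ ‖z‖ := abs_im_le_norm z
    have hz0 : z ≠ 0 := fun e => by rw [e] at h; norm_num at h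
    obtain ⟨F, hF⟩ : ∃ F : ℂ → ℂ, F = fun y =>
        cexp (z * y) * ((1 - (y / 2) ^ 2) / z + y / 2 / z ^ 2 - 1 / 2 / z ^ 3) := ⟨_, rfl⟩
    have hd : ∀ y ∈ Set.uIcc (-2 : ℝ) 2, HasDerivAt (fun t : ℝ => F t)
        ((1 - ((y : ℂ) / 2) ^ 2) * cexp (z * y)) y := fun y _ => by
      have h1 : HasDerivAt (fun w : ℂ => cexp (z * w)) (cexp (z * (y : ℂ)) * z) (y : ℂ) := by
        simpa using ((hasDerivAt_id' (y : ℂ)).const_mul z).cexp
      have h2 : HasDerivAt (fun w : ℂ => (1 - (w / 2) ^ 2) / z + w / 2 / z ^ 2 - 1 / 2 / z ^ 3)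
          ((-((y : ℂ) / 2)) / z + 1 / 2 / z ^ 2) (y : ℂ) := by
        have a := (((hasDerivAt_id' (y : ℂ)).div_const 2).fun_pow 2).const_sub 1
        have b := ((hasDerivAt_id' (y : ℂ)).div_const 2).div_const (z ^ 2)
        refine (((a.div_const z).fun_add b).sub_const (1 / 2 / z ^ 3)).congr_deriv ?_
        ring
      have h3 := (h1.fun_mul h2).comp_ofReal
      rw [hF]
      refine h3.congr_deriv ?_
      field_simp
      ring
    have hint : tentKer z = F ((2 : ℝ) : ℂ) - F ((-2 : ℝ) : ℂ) :=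
      intervalIntegral.integral_eq_sub_of_hasDerivAt hd
        ((by fun_prop : Continuous fun y : ℝ =>
          (1 - ((y : ℂ) / 2) ^ 2) * cexp (z * y)).intervalIntegrable _ _)
    have hzn : 1 ≤ ‖z‖ := by linarith
    have hFb : ∀ y : ℝ, y = 2 ∨ y = -2 → ‖F y‖ ≤ E * (3 / 2 / ‖z‖ ^ 2) := fun y hy => by
      have e1 : (1 : ℂ) - ((y : ℂ) / 2) ^ 2 = 0 := by rcases hy with rfl | rfl <;> norm_num
      have e2 : ‖(y : ℂ) / 2‖ = 1 := by rcases hy with rfl | rfl <;> norm_num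
      rw [hF, norm_mul, e1, zero_div, zero_add]
      refine mul_le_mul (hexp y (by rcases hy with rfl | rfl <;> norm_num)) ?_ (norm_nonneg _)
        hE0.le
      refine (norm_sub_le _ _).trans ?_
      rw [norm_div, e2, norm_div _ (z ^ 3), norm_div, norm_one, Complex.norm_two, norm_pow,
        norm_pow]
      have : 1 / 2 / ‖z‖ ^ 3 ≤ 1 / 2 / ‖z‖ ^ 2 := div_le_div_of_nonneg_left (by norm_num)
        (by positivity) (pow_le_pow_right₀ hzn (by norm_num))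
      have e : 3 / 2 / ‖z‖ ^ 2 = 1 / ‖z‖ ^ 2 + 1 / 2 / ‖z‖ ^ 2 := by ring
      linarith
    rw [hint]
    refine (norm_sub_le _ _).trans ((add_le_add (hFb 2 (Or.inl rfl)) (hFb (-2) (Or.inr rfl))).trans
      ?_)
    have h4 : 1 / ‖z‖ ^ 2 ≤ 4 * (1 / (1 + |z.im|) ^ 2) := by
      rw [mul_one_div, div_le_div_iff₀ (by positivity) (by positivity), one_mul]
      nlinarith [pow_le_pow_left₀ (show 0 ≤ 1 + |z.im| by positivity)
        (show 1 + |z.im| ≤ 2 * ‖z‖ by linarith) 2]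
    rw [show E * (3 / 2 / ‖z‖ ^ 2) + E * (3 / 2 / ‖z‖ ^ 2) = 3 * E * (1 / ‖z‖ ^ 2) by ring]
    refine (mul_le_mul_of_nonneg_left h4 (by positivity)).trans ?_
    rw [show 16 * E * (1 / (1 + |z.im|) ^ 2) = 3 * E * (4 * (1 / (1 + |z.im|) ^ 2)) +
      4 * E * (1 / (1 + |z.im|) ^ 2) by ring]
    exact le_add_of_nonneg_right (by positivity)

/-- The double sum. -/
theorem exists_tent_sum_le : ∃ K, 0 ≤ K ∧ ∀ (b : ℝ) (Z : Finset ℂ) (d : ℂ → ℂ), |b| ≤ 4 →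
    ∫ y in (-2 : ℝ)..2, (1 - (y / 2) ^ 2) *
        ‖∑ ρ ∈ Z, d ρ * cexp (((b / 2 : ℝ) + ρ.im * I) * y)‖ ^ 2 ≤
      K * ∑ ρ ∈ Z, ∑ σ ∈ Z, ‖d ρ‖ * ‖d σ‖ * (1 / (1 + |ρ.im - σ.im|) ^ 2) := by
  obtain ⟨K, hK, hker⟩ := exists_tentKer_le 4
  refine ⟨K, hK, fun b Z d hb => ?_⟩
  have key : ((∫ y in (-2 : ℝ)..2, (1 - (y / 2) ^ 2) *
      ‖∑ ρ ∈ Z, d ρ * cexp (((b / 2 : ℝ) + ρ.im * I) * y)‖ ^ 2 : ℝ) : ℂ) =
      ∑ ρ ∈ Z, ∑ σ ∈ Z, d ρ * (starRingEnd ℂ) (d σ) *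
        tentKer ((b : ℂ) + ((ρ.im - σ.im : ℝ) : ℂ) * I) := by
    rw [← intervalIntegral.integral_ofReal]
    have e : ∀ y : ℝ, (((1 - (y / 2) ^ 2) *
        ‖∑ ρ ∈ Z, d ρ * cexp (((b / 2 : ℝ) + ρ.im * I) * y)‖ ^ 2 : ℝ) : ℂ) =
        ∑ ρ ∈ Z, ∑ σ ∈ Z, d ρ * (starRingEnd ℂ) (d σ) *
          ((1 - ((y : ℂ) / 2) ^ 2) * cexp (((b : ℂ) + ((ρ.im - σ.im : ℝ) : ℂ) * I) * y)) :=
      fun y => by
      rw [ofReal_mul, ← Complex.normSq_eq_norm_sq, ← Complex.mul_conj, map_sum, sum_mul_sum,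
        mul_sum]
      refine sum_congr rfl fun ρ _ => ?_
      rw [mul_sum]
      refine sum_congr rfl fun σ _ => ?_
      rw [map_mul, ← Complex.exp_conj, map_mul, map_add, map_mul, conj_ofReal, conj_ofReal,
        conj_ofReal, conj_I]
      rw [show ((b : ℂ) + ((ρ.im - σ.im : ℝ) : ℂ) * I) * y =
        ((b / 2 : ℝ) + ρ.im * I) * y + ((b / 2 : ℝ) + σ.im * -I) * y by push_cast; ring,
        Complex.exp_add]
      push_cast
      ring
    simp only [e]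
    rw [intervalIntegral.integral_finsetSum fun ρ _ => Continuous.intervalIntegrable (by fun_prop)
      _ _]
    refine sum_congr rfl fun ρ _ => ?_
    rw [intervalIntegral.integral_finsetSum fun σ _ => Continuous.intervalIntegrable (by fun_prop)
      _ _]
    exact sum_congr rfl fun σ _ => by rw [intervalIntegral.integral_const_mul]; rfl
  refine le_trans (le_abs_self _) ?_
  rw [← Real.norm_eq_abs, ← Complex.norm_real, key, mul_sum]
  refine (norm_sum_le _ _).trans (sum_le_sum fun ρ _ => (norm_sum_le _ _).trans ?_)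
  rw [mul_sum]
  refine sum_le_sum fun σ _ => ?_
  have h := hker ((b : ℂ) + ((ρ.im - σ.im : ℝ) : ℂ) * I) (by simpa using hb)
  rw [norm_mul, norm_mul, RCLike.norm_conj]
  refine (mul_le_mul_of_nonneg_left h (by positivity)).trans (le_of_eq ?_)
  simp
  ring

/-- `∑ w / (1 + |γ - t|) ^ 2 = O (log (|t| + 100))`. -/
theorem exists_pair_sum_sq : ∃ C, 0 ≤ C ∧ ∀ (t : ℝ) (S : Finset ℂ), (∀ ρ ∈ S, xiFn ρ = 0) →
    ∑ ρ ∈ S, (zeroWeight ρ : ℝ) * (1 / (1 + |ρ.im - t|) ^ 2) ≤ C * ell t := by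
  obtain ⟨C, hC, h⟩ := FA.ExplicitFormula.exists_sum_blocks
  obtain ⟨q, hq⟩ : ∃ q : ℤ → ℝ, q = fun j : ℤ => 1 / (1 + |(j : ℝ)|) ^ (3 / 2 : ℝ) := ⟨_, rfl⟩
  have hqs : Summable q := by
    refine (Real.summable_abs_int_rpow
      (show (1 : ℝ) < 3 / 2 by norm_num)).of_norm_bounded_eventually ?_
    filter_upwards [Set.Finite.compl_mem_cofinite
      (Set.finite_singleton (0 : ℤ))] with j hj
    have hj0 : (0 : ℝ) < |(j : ℝ)| := abs_pos.2 (Int.cast_ne_zero.2 hj)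
    simp only [hq]
    rw [Real.norm_of_nonneg (by positivity), Real.rpow_neg hj0.le, one_div]
    exact inv_anti₀ (by positivity) (Real.rpow_le_rpow hj0.le (by linarith) (by norm_num))
  have hq0 : ∀ j, 0 ≤ q j := fun j =>
    hq ▸ div_nonneg zero_le_one (Real.rpow_nonneg (by positivity) _)
  refine ⟨C * (4 * (3 * ∑' j, q j)), mul_nonneg hC (mul_nonneg (by norm_num)
    (mul_nonneg (by norm_num) (tsum_nonneg hq0))), fun t S hS => ?_⟩
  obtain ⟨n, hn⟩ : ∃ n, n = ⌊|t|⌋₊ := ⟨_, rfl⟩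
  obtain ⟨R, hR⟩ : ∃ R, R = S.image fun ρ : ℂ => ⌊|ρ.im|⌋₊ := ⟨_, rfl⟩
  refine (h S R _ (fun k => 4 * (1 / (1 + |(k : ℝ) - n|) ^ 2)) (fun ρ hρ => ⟨hS ρ hρ,
    hR ▸ mem_image_of_mem _ hρ, ?_⟩) fun k _ => by positivity).trans ?_
  · rw [mul_one_div, div_le_div_iff₀ (by positivity) (by positivity), one_mul]
    have h1 : |(⌊|ρ.im|⌋₊ : ℝ) - n| ≤ |ρ.im - t| + 1 := by
      have a1 := Nat.floor_le (abs_nonneg ρ.im)
      have a2 := Nat.lt_floor_add_one |ρ.im|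
      have b1 : (n : ℝ) ≤ |t| := hn ▸ Nat.floor_le (abs_nonneg t)
      have b2 : |t| < n + 1 := hn ▸ Nat.lt_floor_add_one |t|
      have c1 := abs_abs_sub_abs_le_abs_sub ρ.im t
      rw [abs_le] at c1 ⊢
      constructor <;> linarith [c1.1, c1.2]
    rw [show (4 : ℝ) = 2 ^ 2 by norm_num, ← mul_pow]
    exact pow_le_pow_left₀ (by positivity) (by linarith [abs_nonneg (ρ.im - t)]) 2
  rw [mul_assoc C]
  refine mul_le_mul_of_nonneg_left ?_ hC
  have hk : ∀ k ∈ R, ell k * (4 * (1 / (1 + |(k : ℝ) - n|) ^ 2)) ≤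
      4 * (3 * q ((k : ℤ) - n)) * ell t := fun k _ => by
    obtain ⟨u, hu⟩ : ∃ u, u = 1 + |(k : ℝ) - n| := ⟨_, rfl⟩
    have hu1 : 1 ≤ u := by rw [hu]; linarith [abs_nonneg ((k : ℝ) - n)]
    have hu0 : 0 < u := by linarith
    have hl : ell k ≤ 3 * u ^ (1 / 2 : ℝ) * ell t := by
      have h1 : ell k ≤ ell t + Real.log u := by
        rw [ell, ell, ← Real.log_mul (by positivity) hu0.ne', Nat.abs_cast]
        refine Real.log_le_log (by positivity) ?_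
        have h2 : (k : ℝ) ≤ n + (u - 1) := by rw [hu]; linarith [le_abs_self ((k : ℝ) - n)]
        have h3 : (n : ℝ) ≤ |t| := hn ▸ Nat.floor_le (abs_nonneg t)
        nlinarith [abs_nonneg t]
      have h2 : Real.log u ≤ u ^ (1 / 2 : ℝ) / (1 / 2) :=
        Real.log_le_rpow_div hu0.le (by norm_num)
      have h3 : 1 ≤ u ^ (1 / 2 : ℝ) := Real.one_le_rpow hu1 (by norm_num)
      nlinarith [four_le_ell t]
    have e : q ((k : ℤ) - n) = u ^ (1 / 2 : ℝ) * (1 / u ^ 2) := by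
      rw [hq, hu]
      push_cast
      rw [mul_one_div, div_eq_div_iff (by positivity) (by positivity), one_mul,
        ← Real.rpow_natCast, ← Real.rpow_add (by positivity)]
      norm_num
    rw [e, ← hu]
    have := mul_le_mul_of_nonneg_right hl (show 0 ≤ 4 * (1 / u ^ 2) by positivity)
    linarith
  refine (sum_le_sum hk).trans ?_
  rw [← sum_mul, ← mul_sum, ← mul_sum]
  refine mul_le_mul_of_nonneg_right (mul_le_mul_of_nonneg_left (mul_le_mul_of_nonneg_left ?_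
    (by norm_num)) (by norm_num)) (ell_pos t).le
  rw [← sum_image (g := fun k : ℕ => (k : ℤ) - n) (f := q) fun a _ b _ hab => by simpa using hab]
  exact hqs.sum_le_tsum _ fun j _ => hq0 j

/-- `∑ w c(ρ) x ^ (ρ + m)`, for `x ≥ 1`. -/
def powSum (S : Finset ℂ) (c : ℂ → ℂ) (m x : ℝ) : ℂ :=
  ∑ ρ ∈ S, (zeroWeight ρ : ℂ) * c ρ * ((max x 1 : ℝ) : ℂ) ^ (ρ + (m : ℂ))

theorem continuous_powSum (S : Finset ℂ) (c : ℂ → ℂ) (m : ℝ) : Continuous (powSum S c m) := by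
  unfold powSum
  exact continuous_finsetSum S fun ρ _ => continuous_const.mul
    ((continuous_ofReal.comp (continuous_id.max continuous_const)).cpow continuous_const fun x =>
      Or.inl (by simp))

theorem powSum_of_le (S : Finset ℂ) (c : ℂ → ℂ) (m : ℝ) {x : ℝ} (hx : 1 ≤ x) :
    powSum S c m x = ∑ ρ ∈ S, (zeroWeight ρ : ℂ) * c ρ * (x : ℂ) ^ (ρ + (m : ℂ)) := by
  rw [powSum, max_eq_left hx]

/-- A primitive. -/
theorem integral_powSum {S : Finset ℂ} (c : ℂ → ℂ) {m a x : ℝ} (hx : 1 ≤ x) (ha : 0 ≤ a)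
    (hS : ∀ ρ ∈ S, ρ + ((m + 1 : ℝ) : ℂ) ≠ 0) :
    ∫ t in (0 : ℝ)..a, powSum S (fun ρ => c ρ * (ρ + ((m + 1 : ℝ) : ℂ))) m (x + t) =
      powSum S c (m + 1) (x + a) - powSum S c (m + 1) x := by
  have h := intervalIntegral.integral_eq_sub_of_hasDerivAt_of_le
    (f := fun t => powSum S c (m + 1) (x + t))
    (f' := fun t => powSum S (fun ρ => c ρ * (ρ + ((m + 1 : ℝ) : ℂ))) m (x + t)) ha
    ((continuous_powSum S c _).comp (by fun_prop)).continuousOn (fun t ht => ?_)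
    (((continuous_powSum S _ _).comp (by fun_prop)).intervalIntegrable _ _)
  · simpa using h
  have hxt : 1 < x + t := by linarith [ht.1]
  have e : (fun u : ℝ => powSum S c (m + 1) (x + u)) =ᶠ[𝓝 t]
      fun u => ∑ ρ ∈ S, (zeroWeight ρ : ℂ) * c ρ * ((x + u : ℝ) : ℂ) ^ (ρ + ((m + 1 : ℝ) : ℂ)) := by
    filter_upwards [Ioi_mem_nhds ht.1] with u hu
    exact powSum_of_le S c _ (by linarith [Set.mem_Ioi.1 hu])
  refine HasDerivAt.congr_of_eventuallyEq ?_ e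
  rw [powSum_of_le S _ m hxt.le]
  refine HasDerivAt.fun_sum fun ρ hρ => ?_
  have h1 := (hasDerivAt_ofReal_cpow_const (show x + t ≠ 0 by linarith) (hS ρ hρ)).scomp t
    ((hasDerivAt_id' t).const_add x)
  rw [one_smul] at h1
  refine (h1.const_mul ((zeroWeight ρ : ℂ) * c ρ)).congr_deriv ?_
  rw [show ρ + ((m + 1 : ℝ) : ℂ) - 1 = ρ + (m : ℂ) by push_cast; ring]
  ring

/-- **The mean square**, each zero weighted by the logarithm of its height. -/
theorem exists_meanSquare_weighted : ∃ K, 0 ≤ K ∧ ∀ (X m : ℝ) (S : Finset ℂ) (c : ℂ → ℂ), 1 ≤ X →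
    |m| ≤ 1 → (∀ ρ ∈ S, xiFn ρ = 0 ∧ ρ.re = 1 / 2) →
      ∫ x in X..4 * X, ‖powSum S c m x‖ ^ 2 ≤
        K * (X ^ (2 + 2 * m) * ∑ ρ ∈ S, ell ρ.im * ((zeroWeight ρ : ℝ) * ‖c ρ‖ ^ 2)) := by
  obtain ⟨K₀, hK₀, htent⟩ := exists_tent_sum_le
  obtain ⟨C, hC, hpair⟩ := exists_pair_sum_sq
  refine ⟨2 * K₀ * C, by positivity, fun X m S c hX hm hS => ?_⟩
  obtain ⟨hm1, hm2⟩ := abs_le.1 hm
  have hX0 : 0 < X := by linarith
  obtain ⟨d, hd⟩ : ∃ d : ℂ → ℂ, d = fun ρ => (zeroWeight ρ : ℂ) * c ρ * (X : ℂ) ^ (ρ + (m : ℂ)) :=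
    ⟨_, rfl⟩
  obtain ⟨G, hG⟩ : ∃ G : ℝ → ℝ, G = fun y : ℝ => (1 - (y / 2) ^ 2) *
      ‖∑ ρ ∈ S, d ρ * cexp (((2 * (1 + m) / 2 : ℝ) + ρ.im * I) * y)‖ ^ 2 := ⟨_, rfl⟩
  have hl4 : Real.log 4 ≤ 7 / 5 := by
    rw [show (4 : ℝ) = 2 * 2 by norm_num, Real.log_mul (by norm_num) (by norm_num)]
    linarith [Real.log_two_lt_d9]
  have hl0 : 0 ≤ Real.log 4 := Real.log_nonneg (by norm_num)
  have hsub := intervalIntegral.integral_comp_mul_deriv (a := 0) (b := Real.log 4)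
    (f := fun y => X * Real.exp y) (f' := fun y => X * Real.exp y)
    (g := fun x => ‖powSum S c m x‖ ^ 2)
    (fun y _ => (Real.hasDerivAt_exp y).const_mul X) (by fun_prop)
    ((continuous_powSum S c m).norm.pow 2)
  rw [Real.exp_zero, mul_one, Real.exp_log (by norm_num : (0 : ℝ) < 4), mul_comm X 4] at hsub
  rw [← hsub]
  have hGc : Continuous G := hG ▸ (by fun_prop)
  have hpt : ∀ y ∈ Set.Icc 0 (Real.log 4),
      ((fun x => ‖powSum S c m x‖ ^ 2) ∘ fun y => X * Real.exp y) y * (X * Real.exp y) ≤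
        2 * X * G y := fun y hy => by
    have he : 1 ≤ X * Real.exp y :=
      one_le_mul_of_one_le_of_one_le hX (Real.one_le_exp hy.1)
    have hpow : ∀ ρ ∈ S, ((X * Real.exp y : ℝ) : ℂ) ^ (ρ + (m : ℂ)) =
        (X : ℂ) ^ (ρ + (m : ℂ)) * cexp ((ρ + (m : ℂ)) * y) := fun ρ _ => by
      rw [ofReal_mul, mul_cpow_ofReal_nonneg hX0.le (Real.exp_pos y).le,
        cpow_def_of_ne_zero (x := ((Real.exp y : ℝ) : ℂ))
          (ofReal_ne_zero.2 (Real.exp_pos y).ne'),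
        ← ofReal_log (Real.exp_pos y).le, Real.log_exp, mul_comm (y : ℂ)]
    have e : ∑ ρ ∈ S, d ρ * cexp (((2 * (1 + m) / 2 : ℝ) + ρ.im * I) * y) =
        cexp ((1 / 2 : ℂ) * y) * powSum S c m (X * Real.exp y) := by
      rw [powSum_of_le S c m he, mul_sum]
      refine sum_congr rfl fun ρ hρ => ?_
      have hr : ρ + (m : ℂ) = ((1 / 2 + m : ℝ) : ℂ) + ρ.im * I := by
        apply Complex.ext <;> simp [(hS ρ hρ).2]
      rw [hpow ρ hρ]
      simp only [hd]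
      rw [show ((2 * (1 + m) / 2 : ℝ) + ρ.im * I) * y = (1 / 2 : ℂ) * y + (ρ + (m : ℂ)) * y by
        rw [hr]
        push_cast
        ring, Complex.exp_add]
      ring
    have hn : ‖cexp ((1 / 2 : ℂ) * y)‖ ^ 2 = Real.exp y := by
      rw [Complex.norm_exp, ← Real.exp_nat_mul]
      norm_num
      ring
    simp only [hG, Function.comp_apply]
    rw [e, norm_mul, mul_pow, hn]
    have h1 : 1 ≤ 2 * (1 - (y / 2) ^ 2) := by nlinarith [hy.1, hy.2]
    nlinarith [mul_le_mul_of_nonneg_left h1 (show 0 ≤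
      ‖powSum S c m (X * Real.exp y)‖ ^ 2 * (X * Real.exp y) by positivity)]
  refine (intervalIntegral.integral_mono_on hl0 (Continuous.intervalIntegrable
    ((((continuous_powSum S c m).norm.pow 2).comp (by fun_prop)).mul (by fun_prop)) _ _)
    (Continuous.intervalIntegrable (by fun_prop : Continuous fun y => 2 * X * G y) _ _)
      hpt).trans ?_
  rw [intervalIntegral.integral_const_mul]
  refine (mul_le_mul_of_nonneg_left ((intervalIntegral.integral_mono_interval (c := -2) (d := 2)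
    (by norm_num) hl0 (by linarith) ((ae_restrict_mem measurableSet_Ioc).mono fun y hy =>
      hG ▸ mul_nonneg (tent_nonneg ⟨hy.1.le, hy.2⟩) (sq_nonneg _))
    (hGc.intervalIntegrable _ _)).trans
      (hG ▸ htent (2 * (1 + m)) S d (by rw [abs_of_nonneg (by linarith)]; linarith)))
    (by positivity)).trans ?_
  obtain ⟨A, hA⟩ : ∃ A : ℂ → ℝ, A = fun ρ => (zeroWeight ρ : ℝ) * ‖c ρ‖ ^ 2 := ⟨_, rfl⟩
  obtain ⟨k, hk⟩ : ∃ k : ℂ → ℂ → ℝ, k = fun ρ σ => 1 / (1 + |ρ.im - σ.im|) ^ 2 := ⟨_, rfl⟩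
  have hdn : ∀ ρ ∈ S, ‖d ρ‖ = (zeroWeight ρ : ℝ) * ‖c ρ‖ * X ^ (1 / 2 + m) := fun ρ hρ => by
    simp only [hd, norm_mul, Complex.norm_natCast]
    rw [norm_cpow_eq_rpow_re_of_pos hX0, add_re, ofReal_re, (hS ρ hρ).2]
  have hX2 : X * (X ^ (1 / 2 + m) * X ^ (1 / 2 + m)) = X ^ (2 + 2 * m) := by
    rw [← Real.rpow_add hX0]
    nth_rw 1 [← Real.rpow_one X]
    rw [← Real.rpow_add hX0]
    ring_nf
  have hsym : ∀ ρ σ : ℂ, k σ ρ = k ρ σ := fun ρ σ => by simp only [hk, abs_sub_comm]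
  have hmain : ∑ ρ ∈ S, ∑ σ ∈ S, ((zeroWeight ρ : ℝ) * ‖c ρ‖) * ((zeroWeight σ : ℝ) * ‖c σ‖) *
      k ρ σ ≤ C * ∑ ρ ∈ S, ell ρ.im * A ρ := by
    have h1 : ∀ ρ σ : ℂ, ((zeroWeight ρ : ℝ) * ‖c ρ‖) * ((zeroWeight σ : ℝ) * ‖c σ‖) * k ρ σ ≤
        1 / 2 * (A ρ * ((zeroWeight σ : ℝ) * k ρ σ)) +
          1 / 2 * (A σ * ((zeroWeight ρ : ℝ) * k σ ρ)) := fun ρ σ => by
      have h0 : 0 ≤ (zeroWeight ρ : ℝ) * zeroWeight σ * k ρ σ := by simp only [hk]; positivity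
      have := mul_le_mul_of_nonneg_left (two_mul_le_add_sq ‖c ρ‖ ‖c σ‖) h0
      simp only [hA, hsym ρ σ]
      linarith
    have h2 : ∀ ρ ∈ S, A ρ * ∑ σ ∈ S, (zeroWeight σ : ℝ) * k ρ σ ≤ C * (ell ρ.im * A ρ) :=
        fun ρ hρ => by
      rw [← mul_assoc, mul_comm _ (A ρ)]
      refine mul_le_mul_of_nonneg_left ?_ (hA ▸ by positivity)
      have h3 := hpair ρ.im S fun σ hσ => (hS σ hσ).1
      refine le_trans (le_of_eq (sum_congr rfl fun σ _ => ?_)) h3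
      rw [← hsym, hk]
    refine (sum_le_sum fun ρ _ => sum_le_sum fun σ _ => h1 ρ σ).trans ?_
    simp only [sum_add_distrib]
    rw [sum_comm (f := fun ρ σ => 1 / 2 * (A σ * ((zeroWeight ρ : ℝ) * k σ ρ)))]
    simp only [← mul_sum]
    have := sum_le_sum h2
    rw [← mul_sum] at this
    linarith
  calc 2 * X * (K₀ * ∑ ρ ∈ S, ∑ σ ∈ S, ‖d ρ‖ * ‖d σ‖ * (1 / (1 + |ρ.im - σ.im|) ^ 2))
      = 2 * K₀ * (X * (X ^ (1 / 2 + m) * X ^ (1 / 2 + m))) *
          ∑ ρ ∈ S, ∑ σ ∈ S, ((zeroWeight ρ : ℝ) * ‖c ρ‖) * ((zeroWeight σ : ℝ) * ‖c σ‖) *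
            k ρ σ := by
        simp only [mul_sum]
        refine sum_congr rfl fun ρ hρ => sum_congr rfl fun σ hσ => ?_
        rw [hdn ρ hρ, hdn σ hσ, hk]
        ring
    _ ≤ 2 * K₀ * X ^ (2 + 2 * m) * (C * ∑ ρ ∈ S, ell ρ.im * A ρ) := by
        rw [hX2]
        exact mul_le_mul_of_nonneg_left hmain (by positivity)
    _ = _ := by rw [hA]; ring

/-- **The mean square.** -/
theorem exists_meanSquare : ∃ K, 0 ≤ K ∧ ∀ (X R m : ℝ) (S : Finset ℂ) (c : ℂ → ℂ), 1 ≤ X →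
    |m| ≤ 1 → (∀ ρ ∈ S, xiFn ρ = 0 ∧ |ρ.im| ≤ R ∧ ρ.re = 1 / 2) →
      ∫ x in X..4 * X, ‖powSum S c m x‖ ^ 2 ≤
        K * (X ^ (2 + 2 * m) * ell R * ∑ ρ ∈ S, (zeroWeight ρ : ℝ) * ‖c ρ‖ ^ 2) := by
  obtain ⟨K, hK, h⟩ := exists_meanSquare_weighted
  refine ⟨K, hK, fun X R m S c hX hm hS => (h X m S c hX hm fun ρ hρ =>
    ⟨(hS ρ hρ).1, (hS ρ hρ).2.2⟩).trans ?_⟩
  rw [mul_assoc (X ^ (2 + 2 * m)), mul_sum (a := ell R)]
  refine mul_le_mul_of_nonneg_left (mul_le_mul_of_nonneg_left (sum_le_sum fun ρ hρ => ?_)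
    (Real.rpow_nonneg (by linarith) _)) hK
  exact mul_le_mul_of_nonneg_right (ell_mono ((hS ρ hρ).2.1.trans (le_abs_self R))) (by positivity)

/-- The mean square of an average of translates. -/
theorem integral_avg_sq_le {F : ℝ → ℂ} (hF : Continuous F) {X Y a B : ℝ} (hXY : X ≤ Y)
    (ha : 0 ≤ a) (hB : ∀ t ∈ Set.Icc 0 a, ∫ x in X..Y, ‖F (x + t)‖ ^ 2 ≤ B) :
    ∫ x in X..Y, ‖∫ t in (0 : ℝ)..a, F (x + t)‖ ^ 2 ≤ a ^ 2 * B := by
  obtain ⟨g, hg⟩ : ∃ g : ℝ → ℝ → ℝ, g = fun x t => ‖F (x + t)‖ ^ 2 := ⟨_, rfl⟩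
  have hgc : Continuous (Function.uncurry g) := hg ▸ by
    simp only [Function.uncurry_def]
    fun_prop
  have hpt : ∀ x, ‖∫ t in (0 : ℝ)..a, F (x + t)‖ ^ 2 ≤ a * ∫ t in (0 : ℝ)..a, g x t := fun x => by
    obtain ⟨J, hJ⟩ : ∃ J, J = ∫ t in (0 : ℝ)..a, ‖F (x + t)‖ := ⟨_, rfl⟩
    have hJ0 : 0 ≤ J := hJ ▸ intervalIntegral.integral_nonneg ha fun t _ => norm_nonneg _
    have h1 : ‖∫ t in (0 : ℝ)..a, F (x + t)‖ ≤ J :=
      hJ ▸ intervalIntegral.norm_integral_le_integral_norm ha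
    have hG0 : 0 ≤ a * ∫ t in (0 : ℝ)..a, g x t := mul_nonneg ha
      (intervalIntegral.integral_nonneg ha fun t _ => hg ▸ sq_nonneg _)
    rcases ha.eq_or_lt with rfl | ha0
    · simp
    refine (pow_le_pow_left₀ (norm_nonneg _) h1 2).trans ?_
    have h2 : ∫ t in (0 : ℝ)..a, (2 * (J / a) * ‖F (x + t)‖ - (J / a) ^ 2) ≤
        ∫ t in (0 : ℝ)..a, g x t := by
      refine intervalIntegral.integral_mono_on ha (Continuous.intervalIntegrable (by fun_prop) _ _)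
        ((hgc.comp (by fun_prop : Continuous fun t : ℝ => (x, t))).intervalIntegrable _ _)
        fun t _ => ?_
      simp only [hg]
      nlinarith [sq_nonneg (‖F (x + t)‖ - J / a)]
    rw [intervalIntegral.integral_sub (Continuous.intervalIntegrable (by fun_prop) _ _)
      intervalIntegrable_const, intervalIntegral.integral_const_mul, ← hJ,
      intervalIntegral.integral_const, smul_eq_mul, sub_zero] at h2
    have h3 := mul_le_mul_of_nonneg_left h2 ha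
    refine le_trans (le_of_eq ?_) h3
    field_simp
    ring
  refine (intervalIntegral.integral_mono_on hXY ?_ ?_ fun x _ => hpt x).trans ?_
  · exact (((intervalIntegral.continuous_parametric_intervalIntegral_of_continuous'
      (f := fun x t => F (x + t)) (by simp only [Function.uncurry_def]; fun_prop) 0 a).norm).pow
      2).intervalIntegrable _ _
  · exact ((intervalIntegral.continuous_parametric_intervalIntegral_of_continuous' hgc 0 a
      ).const_mul a).intervalIntegrable _ _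
  rw [intervalIntegral.integral_const_mul, intervalIntegral_intervalIntegral_swap
    ((hgc.continuousOn.integrableOn_compact (isCompact_uIcc.prod isCompact_uIcc)).mono_set
      (Set.prod_mono Set.uIoc_subset_uIcc Set.uIoc_subset_uIcc)), sq, mul_assoc]
  refine mul_le_mul_of_nonneg_left ?_ ha
  refine (intervalIntegral.integral_mono_on ha
    ((intervalIntegral.continuous_parametric_intervalIntegral_of_continuous'
      (f := fun t x => g x t) (hgc.comp continuous_swap) X Y).intervalIntegrable _ _)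
    intervalIntegrable_const fun t ht => by simpa [hg] using hB t ht).trans (le_of_eq ?_)
  rw [intervalIntegral.integral_const, sub_zero, smul_eq_mul]

end FA.SelbergShort

end
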