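import Fermat.Agent.SelbergShort.MeanSquare
import Fermat.Agent.SelbergShort.Explicit

/-!
# Selberg's variance

With all zeros on the critical line `∫_X^{2X} (ψ (x + h) - ψ x - h)² = O (h X log² X)` for
`1 ≤ h ≤ X`: the zeros up to height `X / h` through both differences, those up to `X` through the
unit one, the others one by one.
-/

set_option autoImplicit false

noncomputable section

namespace FA.SelbergShort

open Finset Complex Filter MeasureTheory
open FA.RiemannMangoldt (xiFn xiFn_zero_strip)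
open FA.ExplicitFormula (zeroWeight zeroTerm zerosUpTo mem_zerosUpTo summable_norm_zeroTerm
  zeroTerm_eq_zero exists_inv_im_le norm_mul_add_one_ge im_ne_zero_of_zero)
open FA.ZeroFree (ell ell_mono ell_pos four_le_ell)
open scoped Real Topology Chebyshev

/-- `1 / (ρ (ρ + 1))`. -/
def invPair (ρ : ℂ) : ℂ := 1 / (ρ * (ρ + 1))

/-- The double difference with steps `h` and `1`. -/
def mixedSum (S : Finset ℂ) (h x : ℝ) : ℂ :=
  powSum S invPair 1 (x + h + 1) - powSum S invPair 1 (x + h) -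
    (powSum S invPair 1 (x + 1) - powSum S invPair 1 x)

theorem continuous_mixedSum (S : Finset ℂ) (h : ℝ) : Continuous (mixedSum S h) :=
  ((((continuous_powSum S _ _).comp (by fun_prop)).sub
    ((continuous_powSum S _ _).comp (by fun_prop))).sub
    (((continuous_powSum S _ _).comp (by fun_prop)).sub (continuous_powSum S _ _)))

theorem mixedSum_filter (S : Finset ℂ) (p : ℂ → Prop) [DecidablePred p] (h x : ℝ) :
    mixedSum S h x = mixedSum (S.filter p) h x + mixedSum (S.filter fun ρ => ¬p ρ) h x := by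
  simp only [mixedSum, powSum, ← sum_sub_distrib, ← sum_add_distrib,
    sum_filter_add_sum_filter_not S p]

theorem exists_zero_count : ∃ C, 0 ≤ C ∧ ∀ (T : ℝ) (S : Finset ℂ), 1 ≤ T →
    (∀ ρ ∈ S, xiFn ρ = 0 ∧ |ρ.im| ≤ T) → ∑ ρ ∈ S, (zeroWeight ρ : ℝ) ≤ C * (T * ell T) := by
  obtain ⟨C, hC, h⟩ := FA.ExplicitFormula.exists_sum_blocks
  refine ⟨2 * C, by positivity, fun T S hT hS => ?_⟩
  have h1 := h S (range (⌊T⌋₊ + 1)) (fun _ => 1) (fun _ => 1) (fun ρ hρ => ⟨(hS ρ hρ).1,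
    mem_range.2 (Nat.lt_succ_of_le (Nat.floor_mono (hS ρ hρ).2)), le_rfl⟩) fun k _ => zero_le_one
  simp only [mul_one] at h1
  refine h1.trans ?_
  rw [mul_comm (2 : ℝ), mul_assoc]
  refine mul_le_mul_of_nonneg_left
    ((sum_le_card_nsmul _ _ (ell T) fun k hk => ell_mono ?_).trans ?_)
    hC
  · rw [Nat.abs_cast, abs_of_nonneg (by linarith)]
    exact (Nat.cast_le.2 (Nat.lt_succ_iff.1 (mem_range.1 hk))).trans (Nat.floor_le (by linarith))
  · rw [card_range, nsmul_eq_mul, Nat.cast_add_one, ← mul_assoc]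
    exact mul_le_mul_of_nonneg_right (by linarith [Nat.floor_le (show 0 ≤ T by linarith)])
      (ell_pos T).le

theorem ell_scale_le {a X : ℝ} (ha : 0 ≤ a) (hX : 1 ≤ X) (haX : a ≤ X ^ 2 + 3 * X) :
    ell a ≤ 2 * ell X := by
  rw [ell, ell, abs_of_nonneg ha, abs_of_nonneg (by linarith),
    show (2 : ℝ) * Real.log (X + 100) = Real.log ((X + 100) ^ 2) by rw [Real.log_pow]; norm_num]
  exact Real.log_le_log (by positivity) (by nlinarith)

/-- **The explicit formula for `ψ (x + h) - ψ x`, cut at height `X ^ 2`.** -/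
theorem exists_psi_cut : ∃ C, 0 ≤ C ∧ ((∀ ρ : ℂ, xiFn ρ = 0 → ρ.re = 1 / 2) →
    ∀ X h x : ℝ, 1 ≤ h → h ≤ X → X ≤ x → x ≤ 2 * X →
      ‖((ψ (x + h) - ψ x - h : ℝ) : ℂ) + mixedSum (zerosUpTo (X ^ 2)) h x‖ ≤ C * ell X) := by
  obtain ⟨C₁, hC₁, hex⟩ := exists_psi_explicit
  obtain ⟨C₂, hC₂, htail⟩ := FA.ExplicitFormula.exists_sum_tail
  obtain ⟨c, hc, hinv⟩ := exists_inv_im_le
  refine ⟨4 * C₁ + 64 * c ^ 2 * C₂, by positivity, fun hre X h x hh hhX hxX hx2 => ?_⟩
  have hX1 : 1 ≤ X := hh.trans hhX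
  have hX0 : 0 < X := by linarith
  have hx1 : 1 ≤ x := hX1.trans hxX
  obtain ⟨R, hR⟩ : ∃ R, R = X ^ 2 := ⟨_, rfl⟩
  have hR1 : 1 ≤ R := hR ▸ one_le_pow₀ hX1
  rw [← hR]
  obtain ⟨Z, hZ⟩ : ∃ Z : ℂ → ℂ, Z = fun ρ => zeroTerm (x + h + 1) ρ - zeroTerm (x + h) ρ -
      (zeroTerm (x + 1) ρ - zeroTerm x ρ) := ⟨_, rfl⟩
  have s1 := (summable_norm_zeroTerm (show 0 < x + h + 1 by linarith)).of_norm
  have s2 := (summable_norm_zeroTerm (show 0 < x + h by linarith)).of_norm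
  have s3 := (summable_norm_zeroTerm (show 0 < x + 1 by linarith)).of_norm
  have s4 := (summable_norm_zeroTerm (show 0 < x by linarith)).of_norm
  have hZs : Summable Z := hZ ▸ (s1.sub s2).sub (s3.sub s4)
  have hZt : ∑' ρ, Z ρ = (∑' ρ, zeroTerm (x + h + 1) ρ) - (∑' ρ, zeroTerm (x + h) ρ) -
      ((∑' ρ, zeroTerm (x + 1) ρ) - ∑' ρ, zeroTerm x ρ) := by
    rw [hZ, Summable.tsum_sub (s1.sub s2) (s3.sub s4), Summable.tsum_sub s1 s2,
      Summable.tsum_sub s3 s4]
  have hmix : mixedSum (zerosUpTo R) h x = ∑ ρ ∈ zerosUpTo R, Z ρ := by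
    simp only [mixedSum, powSum_of_le _ _ _ (show 1 ≤ x + h + 1 by linarith),
      powSum_of_le _ _ _ (show 1 ≤ x + h by linarith),
      powSum_of_le _ _ _ (show 1 ≤ x + 1 by linarith), powSum_of_le _ _ _ hx1, ← sum_sub_distrib,
      hZ, zeroTerm, invPair, ofReal_one]
    exact sum_congr rfl fun ρ _ => by ring
  obtain ⟨g, hg⟩ : ∃ g : ℂ → ℂ, g = fun ρ => if ρ ∈ zerosUpTo R then Z ρ else 0 := ⟨_, rfl⟩
  have hgs : Summable g := summable_of_ne_finset_zero (s := zerosUpTo R) fun ρ hρ =>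
    hg ▸ if_neg hρ
  have hgsum : ∑' ρ, g ρ = mixedSum (zerosUpTo R) h x := by
    rw [tsum_eq_sum (s := zerosUpTo R) fun ρ hρ => hg ▸ if_neg hρ, hmix]
    exact sum_congr rfl fun ρ hρ => by simp only [hg, if_pos hρ]
  have hrest : ‖∑' ρ, (Z ρ - g ρ)‖ ≤ 64 * c ^ 2 * C₂ * ell X := by
    refine (norm_tsum_le_tsum_norm (hZs.sub hgs).norm).trans
      (Real.tsum_le_of_sum_le (fun ρ => norm_nonneg _) fun S => ?_)
    classical
    rw [← sum_filter_of_ne (p := fun ρ => xiFn ρ = 0 ∧ R < |ρ.im|) fun ρ _ hne => ?_]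
    · refine (sum_le_sum (g := fun ρ => 32 * X ^ (3 / 2 : ℝ) * c ^ 2 *
        ((zeroWeight ρ : ℝ) * (1 / (1 + |ρ.im|) ^ 2))) fun ρ hρ => ?_).trans ?_
      · obtain ⟨hρ0, hρR⟩ := (mem_filter.1 hρ).2
        have hnot : ρ ∉ zerosUpTo R := fun h => (not_lt.2 (mem_zerosUpTo.1 h).2) hρR
        have hden : 1 / ‖ρ * (ρ + 1)‖ ≤ c ^ 2 * (1 / (1 + |ρ.im|) ^ 2) := by
          refine (one_div_le_one_div_of_le ?_ (norm_mul_add_one_ge hρ0)).trans ?_
          · exact sq_pos_of_ne_zero (im_ne_zero_of_zero hρ0)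
          · rw [← sq_abs, ← one_div_pow, ← one_div_pow, ← mul_pow]
            exact pow_le_pow_left₀ (by positivity) (hinv ρ hρ0) 2
        have hone : ∀ u : ℝ, 0 < u → u ≤ 4 * X → ‖zeroTerm u ρ‖ ≤
            8 * X ^ (3 / 2 : ℝ) * c ^ 2 * ((zeroWeight ρ : ℝ) * (1 / (1 + |ρ.im|) ^ 2)) :=
          fun u hu hu4 => by
          have hp : ‖(u : ℂ) ^ (ρ + 1)‖ ≤ 8 * X ^ (3 / 2 : ℝ) := by
            rw [norm_cpow_eq_rpow_re_of_pos hu, add_re, hre ρ hρ0, one_re]
            refine (Real.rpow_le_rpow hu.le hu4 (by norm_num)).trans (le_of_eq ?_)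
            rw [show (1 / 2 + 1 : ℝ) = 3 / 2 by norm_num, Real.mul_rpow (by norm_num) hX0.le,
              show (4 : ℝ) = 2 ^ (2 : ℝ) by norm_num, ← Real.rpow_mul two_pos.le]
            norm_num
          rw [zeroTerm, norm_mul, Complex.norm_natCast, norm_div, div_eq_mul_one_div]
          refine (mul_le_mul_of_nonneg_left (mul_le_mul hp hden (by positivity) (by positivity))
            (Nat.cast_nonneg _)).trans (le_of_eq (by ring))
        simp only [hg, if_neg hnot, sub_zero, hZ]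
        refine (norm_sub_le _ _).trans ((add_le_add (norm_sub_le _ _) (norm_sub_le _ _)).trans ?_)
        linarith [hone (x + h + 1) (by linarith) (by linarith),
          hone (x + h) (by linarith) (by linarith), hone (x + 1) (by linarith) (by linarith),
          hone x (by linarith) (by linarith)]
      · rw [← mul_sum]
        refine (mul_le_mul_of_nonneg_left (htail R _ hR1 fun ρ hρ => (mem_filter.1 hρ).2)
          (by positivity)).trans ?_
        have hXR : X ^ (3 / 2 : ℝ) ≤ R := by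
          rw [hR, ← Real.rpow_two]
          exact Real.rpow_le_rpow_of_exponent_le hX1 (by norm_num)
        have hl : ell R ≤ 2 * ell X :=
          hR ▸ ell_scale_le (sq_nonneg X) hX1 (by nlinarith [sq_nonneg X])
        calc 32 * X ^ (3 / 2 : ℝ) * c ^ 2 * (C₂ * (ell R / R))
            = 32 * c ^ 2 * C₂ * ell R * (X ^ (3 / 2 : ℝ) / R) := by ring
          _ ≤ 32 * c ^ 2 * C₂ * ell R * 1 := by
              have := ell_pos R
              gcongr
              rw [div_le_one (by linarith)]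
              exact hXR
          _ ≤ 32 * c ^ 2 * C₂ * (2 * ell X) := by
              rw [mul_one]
              exact mul_le_mul_of_nonneg_left hl (by positivity)
          _ = _ := by ring
    · refine ⟨?_, ?_⟩
      · by_contra h'
        exact hne (by simp [hg, hZ, zeroTerm_eq_zero _ h'])
      · by_contra h'
        refine hne ?_
        by_cases hz : xiFn ρ = 0
        · simp [hg, mem_zerosUpTo.2 ⟨hz, not_lt.1 h'⟩]
        · simp [hg, hZ, zeroTerm_eq_zero _ hz]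
  have hl1 : ell (x + h) ≤ 2 * ell X := ell_scale_le (by linarith) hX1 (by nlinarith)
  have hl2 : ell x ≤ 2 * ell X := ell_scale_le (by linarith) hX1 (by nlinarith)
  have e1 := hex (x + h) (by linarith)
  have e0 := hex x hx1
  have e : ((ψ (x + h) - ψ x - h : ℝ) : ℂ) + mixedSum (zerosUpTo R) h x =
      (((ψ (x + h) - (x + h) : ℝ) : ℂ) + ((∑' ρ, zeroTerm (x + h + 1) ρ) -
        ∑' ρ, zeroTerm (x + h) ρ)) -
      (((ψ x - x : ℝ) : ℂ) + ((∑' ρ, zeroTerm (x + 1) ρ) - ∑' ρ, zeroTerm x ρ)) -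
        ∑' ρ, (Z ρ - g ρ) := by
    rw [Summable.tsum_sub hZs hgs, hgsum, hZt]
    push_cast
    ring
  rw [e]
  refine (norm_sub_le _ _).trans ((add_le_add (norm_sub_le _ _) hrest).trans ?_)
  linarith [mul_le_mul_of_nonneg_left hl1 hC₁, mul_le_mul_of_nonneg_left hl2 hC₁]

theorem integral_shift_le {P : ℝ → ℂ} (hP : Continuous P) {X t : ℝ} (hX : 0 ≤ X) (ht : 0 ≤ t)
    (ht2 : t ≤ 2 * X) :
    ∫ x in X..2 * X, ‖P (x + t)‖ ^ 2 ≤ ∫ x in X..4 * X, ‖P x‖ ^ 2 := by
  rw [intervalIntegral.integral_comp_add_right (fun x => ‖P x‖ ^ 2) t]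
  exact intervalIntegral.integral_mono_interval (by linarith) (by linarith) (by linarith)
    (Eventually.of_forall fun x => sq_nonneg _) ((hP.norm.pow 2).intervalIntegrable _ _)

/-- The unit step as an average. -/
theorem mixedSum_eq_integral {S : Finset ℂ} (hS : ∀ ρ ∈ S, ρ + 1 ≠ 0) {h x : ℝ} (hx : 1 ≤ x)
    (hh : 0 ≤ h) :
    mixedSum S h x = ∫ t in (0 : ℝ)..1,
      (powSum S (fun ρ => invPair ρ * (ρ + ((0 + 1 : ℝ) : ℂ))) 0 (x + t + h) -
        powSum S (fun ρ => invPair ρ * (ρ + ((0 + 1 : ℝ) : ℂ))) 0 (x + t)) := by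
  obtain ⟨Q, hQ⟩ : ∃ Q : ℝ → ℂ,
      Q = powSum S (fun ρ => invPair ρ * (ρ + ((0 + 1 : ℝ) : ℂ))) 0 := ⟨_, rfl⟩
  have hQc : Continuous Q := hQ ▸ continuous_powSum _ _ _
  have e1 := integral_powSum (S := S) invPair (m := 0) (show 1 ≤ x + h by linarith)
    zero_le_one fun ρ hρ => by simpa using hS ρ hρ
  have e0 := integral_powSum (S := S) invPair (m := 0) hx zero_le_one
    fun ρ hρ => by simpa using hS ρ hρ
  rw [← hQ] at e1 e0
  rw [zero_add] at e1 e0
  rw [← hQ, intervalIntegral.integral_sub (Continuous.intervalIntegrable (by fun_prop) _ _)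
    (Continuous.intervalIntegrable (by fun_prop) _ _)]
  simp only [show ∀ t : ℝ, x + t + h = x + h + t from fun t => by ring]
  rw [e1, e0, mixedSum]

/-- **The three ranges of zeros.** -/
theorem exists_mixed_meanSquare : ∃ K, 0 ≤ K ∧ ((∀ ρ : ℂ, xiFn ρ = 0 → ρ.re = 1 / 2) →
    ∀ X h : ℝ, 1 ≤ h → h ≤ X →
      ∫ x in X..2 * X, ‖mixedSum (zerosUpTo (X ^ 2)) h x‖ ^ 2 ≤ K * (h * X * ell X ^ 2)) := by
  obtain ⟨K, hK, hms⟩ := exists_meanSquare
  obtain ⟨A, hA, hcount⟩ := exists_zero_count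
  obtain ⟨B, hB, htail⟩ := FA.ExplicitFormula.exists_sum_tail
  obtain ⟨c, hc, hinv⟩ := exists_inv_im_le
  refine ⟨3 * (2 * K * A) + 3 * (8 * K * c ^ 2 * B) + 3 * (32 * K * c ^ 4 * B), by positivity,
    fun hre X h hh hhX => ?_⟩
  classical
  have hX1 : 1 ≤ X := hh.trans hhX
  have hX0 : 0 < X := by linarith
  obtain ⟨T, hT⟩ : ∃ T, T = X / h := ⟨_, rfl⟩
  have hT1 : 1 ≤ T := by rw [hT, le_div_iff₀ (by linarith), one_mul]; exact hhX
  have hTX : T ≤ X := by rw [hT]; exact div_le_self hX0.le hh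
  have hlT : ell T ≤ ell X := ell_mono (by
    rw [abs_of_nonneg (by linarith), abs_of_nonneg hX0.le]
    exact hTX)
  have hlR : ell (X ^ 2) ≤ 2 * ell X :=
    ell_scale_le (sq_nonneg X) hX1 (by nlinarith [sq_nonneg X])
  obtain ⟨S, hS⟩ : ∃ S, S = zerosUpTo (X ^ 2) := ⟨_, rfl⟩
  obtain ⟨SL, hSL⟩ : ∃ SL, SL = S.filter fun ρ => |ρ.im| ≤ T := ⟨_, rfl⟩
  obtain ⟨SR, hSR⟩ : ∃ SR, SR = S.filter fun ρ => ¬|ρ.im| ≤ T := ⟨_, rfl⟩
  obtain ⟨SM, hSM⟩ : ∃ SM, SM = SR.filter fun ρ => |ρ.im| ≤ X := ⟨_, rfl⟩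
  obtain ⟨SH, hSH⟩ : ∃ SH, SH = SR.filter fun ρ => ¬|ρ.im| ≤ X := ⟨_, rfl⟩
  have hmem : ∀ ρ ∈ S, xiFn ρ = 0 ∧ |ρ.im| ≤ X ^ 2 ∧ ρ.re = 1 / 2 := fun ρ hρ => by
    obtain ⟨h1, h2⟩ := mem_zerosUpTo.1 (hS ▸ hρ)
    exact ⟨h1, h2, hre ρ h1⟩
  have hLS : ∀ ρ ∈ SL, ρ ∈ S := fun ρ hρ => (mem_filter.1 (hSL ▸ hρ)).1
  have hRS : ∀ ρ ∈ SR, ρ ∈ S := fun ρ hρ => (mem_filter.1 (hSR ▸ hρ)).1
  have hMS : ∀ ρ ∈ SM, ρ ∈ S := fun ρ hρ => hRS ρ (mem_filter.1 (hSM ▸ hρ)).1
  have hHS : ∀ ρ ∈ SH, ρ ∈ S := fun ρ hρ => hRS ρ (mem_filter.1 (hSH ▸ hρ)).1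
  have hLT : ∀ ρ ∈ SL, |ρ.im| ≤ T := fun ρ hρ => by
    rw [hSL, mem_filter] at hρ
    exact hρ.2
  have hMT : ∀ ρ ∈ SM, T < |ρ.im| := fun ρ hρ => by
    rw [hSM, hSR, mem_filter, mem_filter, not_le] at hρ
    exact hρ.1.2
  have hHX : ∀ ρ ∈ SH, X < |ρ.im| := fun ρ hρ => by
    rw [hSH, mem_filter, not_le] at hρ
    exact hρ.2
  have hne : ∀ (m : ℝ), 0 ≤ m → ∀ ρ ∈ S, ρ + (m : ℂ) ≠ 0 := fun m hm ρ hρ e => by
    have := congrArg Complex.re e
    rw [add_re, ofReal_re, (hmem ρ hρ).2.2, zero_re] at this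
    linarith
  have hne1 : ∀ ρ ∈ S, ρ + 1 ≠ 0 := fun ρ hρ => by simpa using hne 1 zero_le_one ρ hρ
  have hne0 : ∀ ρ ∈ S, ρ ≠ 0 := fun ρ hρ => by simpa using hne 0 le_rfl ρ hρ
  have hrho : ∀ ρ ∈ S, 1 / ‖ρ‖ ≤ c * (1 / (1 + |ρ.im|)) := fun ρ hρ =>
    (one_div_le_one_div_of_le (abs_pos.2 (im_ne_zero_of_zero (hmem ρ hρ).1))
      (abs_im_le_norm ρ)).trans (hinv ρ (hmem ρ hρ).1)
  have hc1 : ∀ ρ ∈ S, ‖invPair ρ * (ρ + ((0 + 1 : ℝ) : ℂ))‖ = 1 / ‖ρ‖ := fun ρ hρ => by
    have : invPair ρ * (ρ + ((0 + 1 : ℝ) : ℂ)) = 1 / ρ := by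
      rw [invPair, zero_add, ofReal_one]
      have := hne1 ρ hρ
      field_simp
    rw [this, norm_div, norm_one]
  -- the low zeros
  have hlow : ∫ x in X..2 * X, ‖mixedSum SL h x‖ ^ 2 ≤ 2 * K * A * (h * X * ell X ^ 2) := by
    obtain ⟨P, hP⟩ : ∃ P : ℝ → ℂ, P = powSum SL (fun _ => 1) (-1) := ⟨_, rfl⟩
    obtain ⟨Q, hQ⟩ : ∃ Q : ℝ → ℂ,
        Q = powSum SL (fun ρ => invPair ρ * (ρ + ((0 + 1 : ℝ) : ℂ))) 0 := ⟨_, rfl⟩
    have hPc : Continuous P := hP ▸ continuous_powSum _ _ _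
    have hQc : Continuous Q := hQ ▸ continuous_powSum _ _ _
    have hQd : ∀ y, 1 ≤ y → Q (y + h) - Q y = ∫ u in (0 : ℝ)..h, P (y + u) := fun y hy => by
      have e := integral_powSum (S := SL) (fun ρ => invPair ρ * (ρ + ((0 + 1 : ℝ) : ℂ))) (m := -1)
        hy (by linarith : 0 ≤ h) fun ρ hρ => by simpa using hne0 ρ (hLS ρ hρ)
      rw [show (-1 : ℝ) + 1 = 0 by norm_num, ← hQ] at e
      rw [← e]
      refine intervalIntegral.integral_congr fun u _ => ?_
      simp only [hP, powSum]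
      refine sum_congr rfl fun ρ hρ => ?_
      have := hne1 ρ (hLS ρ hρ)
      have := hne0 ρ (hLS ρ hρ)
      simp only [invPair, zero_add, ofReal_one, ofReal_zero, add_zero]
      field_simp
    have hbase : ∫ x in X..4 * X, ‖P x‖ ^ 2 ≤ 2 * K * A * (T * ell X ^ 2) := by
      rw [hP]
      refine (hms X (X ^ 2) (-1) SL _ hX1 (by norm_num) fun ρ hρ => hmem ρ (hLS ρ hρ)).trans ?_
      simp only [norm_one, one_pow, mul_one, show (2 : ℝ) + 2 * -1 = 0 by norm_num, Real.rpow_zero,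
        one_mul]
      have h1 := hcount T SL hT1 fun ρ hρ =>
        ⟨(hmem ρ (hLS ρ hρ)).1, hLT ρ hρ⟩
      calc K * (ell (X ^ 2) * ∑ ρ ∈ SL, (zeroWeight ρ : ℝ))
          ≤ K * (2 * ell X * (A * (T * ell X))) := by
            have := ell_pos X
            refine mul_le_mul_of_nonneg_left (mul_le_mul hlR (h1.trans ?_) (by positivity)
              (by positivity)) hK
            gcongr
        _ = _ := by ring
    have e : ∀ x ∈ Set.Icc X (2 * X),
        mixedSum SL h x = ∫ t in (0 : ℝ)..1, (Q (x + t + h) - Q (x + t)) := fun x hx => by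
      rw [hQ]
      exact mixedSum_eq_integral (fun ρ hρ => hne1 ρ (hLS ρ hρ)) (hX1.trans hx.1) (by linarith)
    calc ∫ x in X..2 * X, ‖mixedSum SL h x‖ ^ 2
        = ∫ x in X..2 * X, ‖∫ t in (0 : ℝ)..1, (Q (x + t + h) - Q (x + t))‖ ^ 2 :=
          intervalIntegral.integral_congr fun x hx => by
            rw [Set.uIcc_of_le (by linarith)] at hx
            simp only [e x hx]
      _ ≤ 1 ^ 2 * (h ^ 2 * (2 * K * A * (T * ell X ^ 2))) := by
          refine integral_avg_sq_le (F := fun y => Q (y + h) - Q y) (by fun_prop) (by linarith)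
            zero_le_one fun t ht => ?_
          refine le_of_eq_of_le (intervalIntegral.integral_congr fun x hx => ?_)
            (integral_avg_sq_le (F := fun y => P (y + t)) (by fun_prop) (by linarith)
              (by linarith : 0 ≤ h) fun u hu => ?_)
          · rw [Set.uIcc_of_le (by linarith)] at hx
            rw [hQd (x + t) (by linarith [hx.1, ht.1])]
            simp only [show ∀ u : ℝ, x + t + u = x + u + t from fun u => by ring]
          · simp only [show ∀ x : ℝ, x + u + t = x + (u + t) from fun x => by ring]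
            exact (integral_shift_le hPc hX0.le (by linarith [ht.1, hu.1])
              (by linarith [ht.2, hu.2])).trans hbase
      _ = 2 * K * A * (h * (T * h) * ell X ^ 2) := by ring
      _ = _ := by rw [hT, div_mul_cancel₀ _ (by linarith : h ≠ 0)]
  -- the middle zeros
  have hmid : ∫ x in X..2 * X, ‖mixedSum SM h x‖ ^ 2 ≤ 8 * K * c ^ 2 * B * (h * X * ell X ^ 2) := by
    obtain ⟨Q, hQ⟩ : ∃ Q : ℝ → ℂ,
        Q = powSum SM (fun ρ => invPair ρ * (ρ + ((0 + 1 : ℝ) : ℂ))) 0 := ⟨_, rfl⟩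
    have hQc : Continuous Q := hQ ▸ continuous_powSum _ _ _
    have hbase : ∫ x in X..4 * X, ‖Q x‖ ^ 2 ≤ 2 * K * c ^ 2 * B * (h * X * ell X ^ 2) := by
      rw [hQ]
      refine (hms X (X ^ 2) 0 SM _ hX1 (by norm_num) fun ρ hρ => hmem ρ (hMS ρ hρ)).trans ?_
      have h1 := htail T SM hT1 fun ρ hρ => ⟨(hmem ρ (hMS ρ hρ)).1, hMT ρ hρ⟩
      have h2 : ∑ ρ ∈ SM, (zeroWeight ρ : ℝ) * ‖invPair ρ * (ρ + ((0 + 1 : ℝ) : ℂ))‖ ^ 2 ≤
          c ^ 2 * (B * (ell X / T)) := by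
        refine le_trans (sum_le_sum (g := fun ρ => c ^ 2 * ((zeroWeight ρ : ℝ) *
          (1 / (1 + |ρ.im|) ^ 2))) fun ρ hρ => ?_) ?_
        · rw [hc1 ρ (hMS ρ hρ), mul_left_comm (c ^ 2), ← one_div_pow (1 + |ρ.im|), ← mul_pow]
          exact mul_le_mul_of_nonneg_left
            (pow_le_pow_left₀ (by positivity) (hrho ρ (hMS ρ hρ)) 2) (Nat.cast_nonneg _)
        · rw [← mul_sum]
          refine mul_le_mul_of_nonneg_left (h1.trans ?_) (sq_nonneg c)
          gcongr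
      have := ell_pos X
      calc K * (X ^ (2 + 2 * (0 : ℝ)) * ell (X ^ 2) *
            ∑ ρ ∈ SM, (zeroWeight ρ : ℝ) * ‖invPair ρ * (ρ + ((0 + 1 : ℝ) : ℂ))‖ ^ 2)
          ≤ K * (X ^ (2 + 2 * (0 : ℝ)) * (2 * ell X) * (c ^ 2 * (B * (ell X / T)))) := by
            gcongr
        _ = _ := by
            rw [show (2 : ℝ) + 2 * 0 = ((2 : ℕ) : ℝ) by norm_num, Real.rpow_natCast, hT,
              div_div_eq_mul_div]
            field_simp
    have e : ∀ x ∈ Set.Icc X (2 * X),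
        mixedSum SM h x = ∫ t in (0 : ℝ)..1, (Q (x + t + h) - Q (x + t)) := fun x hx => by
      rw [hQ]
      exact mixedSum_eq_integral (fun ρ hρ => hne1 ρ (hMS ρ hρ)) (hX1.trans hx.1) (by linarith)
    calc ∫ x in X..2 * X, ‖mixedSum SM h x‖ ^ 2
        = ∫ x in X..2 * X, ‖∫ t in (0 : ℝ)..1, (Q (x + t + h) - Q (x + t))‖ ^ 2 :=
          intervalIntegral.integral_congr fun x hx => by
            rw [Set.uIcc_of_le (by linarith)] at hx
            simp only [e x hx]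
      _ ≤ 1 ^ 2 * (4 * (2 * K * c ^ 2 * B * (h * X * ell X ^ 2))) := by
          refine integral_avg_sq_le (F := fun y => Q (y + h) - Q y) (by fun_prop) (by linarith)
            zero_le_one fun t ht => ?_
          refine (intervalIntegral.integral_mono_on (by linarith)
            (g := fun x => 2 * ‖Q (x + (t + h))‖ ^ 2 + 2 * ‖Q (x + t)‖ ^ 2)
            (Continuous.intervalIntegrable (by fun_prop) _ _)
            (Continuous.intervalIntegrable (by fun_prop) _ _) fun x _ => ?_).trans ?_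
          · rw [← add_assoc x t h]
            refine (pow_le_pow_left₀ (norm_nonneg _) (norm_sub_le _ _) 2).trans ?_
            nlinarith [sq_nonneg (‖Q (x + t + h)‖ - ‖Q (x + t)‖)]
          · rw [intervalIntegral.integral_add (Continuous.intervalIntegrable (by fun_prop) _ _)
              (Continuous.intervalIntegrable (by fun_prop) _ _),
              intervalIntegral.integral_const_mul, intervalIntegral.integral_const_mul]
            linarith [integral_shift_le hQc hX0.le (t := t + h) (by linarith [ht.1])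
              (by linarith [ht.2]), integral_shift_le hQc hX0.le (t := t) ht.1
                (by linarith [ht.2])]
      _ = _ := by ring
  -- the high zeros
  have hhigh : ∫ x in X..2 * X, ‖mixedSum SH h x‖ ^ 2 ≤
      32 * K * c ^ 4 * B * (h * X * ell X ^ 2) := by
    obtain ⟨Q, hQ⟩ : ∃ Q : ℝ → ℂ, Q = powSum SH invPair 1 := ⟨_, rfl⟩
    have hQc : Continuous Q := hQ ▸ continuous_powSum _ _ _
    have hbase : ∫ x in X..4 * X, ‖Q x‖ ^ 2 ≤ 2 * K * c ^ 4 * B * (h * X * ell X ^ 2) := by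
      rw [hQ]
      refine (hms X (X ^ 2) 1 SH _ hX1 (by norm_num) fun ρ hρ => hmem ρ (hHS ρ hρ)).trans ?_
      have h1 := htail X SH hX1 fun ρ hρ => ⟨(hmem ρ (hHS ρ hρ)).1, hHX ρ hρ⟩
      have h2 : ∑ ρ ∈ SH, (zeroWeight ρ : ℝ) * ‖invPair ρ‖ ^ 2 ≤
          c ^ 4 / X ^ 2 * (B * (ell X / X)) := by
        refine le_trans (sum_le_sum (g := fun ρ => c ^ 4 / X ^ 2 * ((zeroWeight ρ : ℝ) *
          (1 / (1 + |ρ.im|) ^ 2))) fun ρ hρ => ?_) ?_
        · rw [mul_left_comm (c ^ 4 / X ^ 2)]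
          refine mul_le_mul_of_nonneg_left ?_ (Nat.cast_nonneg _)
          have hden : 1 / ‖ρ * (ρ + 1)‖ ≤ c ^ 2 * (1 / (1 + |ρ.im|) ^ 2) := by
            refine (one_div_le_one_div_of_le ?_
              (norm_mul_add_one_ge (hmem ρ (hHS ρ hρ)).1)).trans ?_
            · exact sq_pos_of_ne_zero (im_ne_zero_of_zero (hmem ρ (hHS ρ hρ)).1)
            · rw [← sq_abs, ← one_div_pow, ← one_div_pow, ← mul_pow]
              exact pow_le_pow_left₀ (by positivity) (hinv ρ (hmem ρ (hHS ρ hρ)).1) 2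
          rw [invPair, norm_div, norm_one]
          refine (pow_le_pow_left₀ (by positivity) hden 2).trans ?_
          have hX2 : 1 / (1 + |ρ.im|) ^ 2 ≤ 1 / X ^ 2 := one_div_le_one_div_of_le (by positivity)
            (pow_le_pow_left₀ hX0.le (by linarith [hHX ρ hρ]) 2)
          calc (c ^ 2 * (1 / (1 + |ρ.im|) ^ 2)) ^ 2
              = c ^ 4 * (1 / (1 + |ρ.im|) ^ 2) * (1 / (1 + |ρ.im|) ^ 2) := by ring
            _ ≤ c ^ 4 * (1 / X ^ 2) * (1 / (1 + |ρ.im|) ^ 2) := by gcongr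
            _ = _ := by ring
        · rw [← mul_sum]
          exact mul_le_mul_of_nonneg_left h1 (by positivity)
      have := ell_pos X
      calc K * (X ^ (2 + 2 * (1 : ℝ)) * ell (X ^ 2) *
            ∑ ρ ∈ SH, (zeroWeight ρ : ℝ) * ‖invPair ρ‖ ^ 2)
          ≤ K * (X ^ (2 + 2 * (1 : ℝ)) * (2 * ell X) * (c ^ 4 / X ^ 2 * (B * (ell X / X)))) := by
            gcongr
        _ = 2 * K * c ^ 4 * B * (1 * X * ell X ^ 2) := by
            rw [show (2 : ℝ) + 2 * 1 = ((4 : ℕ) : ℝ) by norm_num, Real.rpow_natCast]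
            field_simp
        _ ≤ _ := by gcongr
    refine (intervalIntegral.integral_mono_on (by linarith)
      (g := fun x => 4 * ‖Q (x + (h + 1))‖ ^ 2 + 4 * ‖Q (x + h)‖ ^ 2 + 4 * ‖Q (x + 1)‖ ^ 2 +
        4 * ‖Q (x + 0)‖ ^ 2)
      (((continuous_mixedSum _ _).norm.pow 2).intervalIntegrable _ _)
      (Continuous.intervalIntegrable (by fun_prop) _ _) fun x _ => ?_).trans ?_
    · simp only [Pi.pow_apply]
      rw [mixedSum, ← hQ, add_zero, ← add_assoc x h 1]
      refine (pow_le_pow_left₀ (norm_nonneg _) ((norm_sub_le _ _).trans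
        (add_le_add (norm_sub_le _ _) (norm_sub_le _ _))) 2).trans ?_
      nlinarith [sq_nonneg (‖Q (x + h + 1)‖ - ‖Q (x + h)‖), sq_nonneg (‖Q (x + 1)‖ - ‖Q x‖),
        sq_nonneg (‖Q (x + h + 1)‖ + ‖Q (x + h)‖ - ‖Q (x + 1)‖ - ‖Q x‖)]
    · have i : ∀ t : ℝ, IntervalIntegrable (fun x => 4 * ‖Q (x + t)‖ ^ 2) volume X (2 * X) :=
        fun t => Continuous.intervalIntegrable (by fun_prop) _ _
      rw [intervalIntegral.integral_add (((i _).add (i _)).add (i _)) (i _),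
        intervalIntegral.integral_add ((i _).add (i _)) (i _),
        intervalIntegral.integral_add (i _) (i _)]
      simp only [intervalIntegral.integral_const_mul]
      linarith [integral_shift_le hQc hX0.le (t := h + 1) (by linarith) (by linarith),
        integral_shift_le hQc hX0.le (t := h) (by linarith) (by linarith),
        integral_shift_le hQc hX0.le (t := 1) (by linarith) (by linarith),
        integral_shift_le hQc hX0.le (t := 0) le_rfl (by linarith)]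
  have hsplit : ∀ x, mixedSum (zerosUpTo (X ^ 2)) h x =
      mixedSum SL h x + (mixedSum SM h x + mixedSum SH h x) := fun x => by
    rw [hSM, hSH, ← mixedSum_filter SR, hSL, hSR, ← mixedSum_filter S, hS]
  have hci : ∀ V : Finset ℂ, IntervalIntegrable (fun x => 3 * ‖mixedSum V h x‖ ^ 2) volume X
      (2 * X) := fun V =>
    (((continuous_mixedSum V h).norm.pow 2).const_mul 3).intervalIntegrable _ _
  refine (intervalIntegral.integral_mono_on (by linarith)
    (g := fun x => 3 * ‖mixedSum SL h x‖ ^ 2 + 3 * ‖mixedSum SM h x‖ ^ 2 +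
      3 * ‖mixedSum SH h x‖ ^ 2)
    (((continuous_mixedSum _ _).norm.pow 2).intervalIntegrable _ _)
    (((hci _).add (hci _)).add (hci _)) fun x _ => ?_).trans ?_
  · simp only [Pi.pow_apply]
    rw [hsplit x]
    refine (pow_le_pow_left₀ (norm_nonneg _) ((norm_add_le _ _).trans
      (add_le_add le_rfl (norm_add_le _ _))) 2).trans ?_
    nlinarith [sq_nonneg (‖mixedSum SL h x‖ - ‖mixedSum SM h x‖),
      sq_nonneg (‖mixedSum SL h x‖ - ‖mixedSum SH h x‖),
      sq_nonneg (‖mixedSum SM h x‖ - ‖mixedSum SH h x‖)]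
  · rw [intervalIntegral.integral_add ((hci _).add (hci _)) (hci _),
      intervalIntegral.integral_add (hci _) (hci _)]
    simp only [intervalIntegral.integral_const_mul]
    linarith

theorem intervalIntegrable_psi_gap (h a b : ℝ) :
    IntervalIntegrable (fun x => (ψ (x + h) - ψ x - h) ^ 2) volume a b := by
  obtain ⟨M, hM⟩ : ∃ M, M = max a b + |h| := ⟨_, rfl⟩
  refine (intervalIntegrable_const (c := (ψ M + |h|) ^ 2)).mono_fun' ?_ ?_
  · exact (((Chebyshev.psi_mono.measurable.comp (measurable_id.add_const h)).sub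
      Chebyshev.psi_mono.measurable).sub_const h).pow_const 2 |>.aestronglyMeasurable
  · filter_upwards [ae_restrict_mem measurableSet_uIoc] with x hx
    have hxM : x ≤ max a b := hx.2
    have n1 := Chebyshev.psi_nonneg (x + h)
    have n2 := Chebyshev.psi_nonneg x
    have m1 : ψ (x + h) ≤ ψ M := Chebyshev.psi_mono (by linarith [le_abs_self h])
    have m2 : ψ x ≤ ψ M := Chebyshev.psi_mono (by linarith [abs_nonneg h])
    rw [Real.norm_of_nonneg (sq_nonneg _), sq_le_sq]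
    refine (abs_le.2 ⟨?_, ?_⟩).trans (le_abs_self _) <;>
      linarith [le_abs_self h, neg_abs_le h]

/-- **Selberg's variance.** -/
theorem exists_psi_variance : ∃ C, 0 ≤ C ∧ ((∀ ρ : ℂ, xiFn ρ = 0 → ρ.re = 1 / 2) →
    ∀ X h : ℝ, 2 ≤ X → 1 ≤ h → h ≤ X →
      ∫ x in X..2 * X, (ψ (x + h) - ψ x - h) ^ 2 ≤ C * (h * X * Real.log X ^ 2)) := by
  obtain ⟨C, hC, hcut⟩ := exists_psi_cut
  obtain ⟨K, hK, hmean⟩ := exists_mixed_meanSquare
  refine ⟨49 * (2 * K + 2 * C ^ 2), by positivity, fun hre X h hX hh hhX => ?_⟩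
  have hX0 : 0 < X := by linarith
  have hci : IntervalIntegrable (fun x => 2 * ‖mixedSum (zerosUpTo (X ^ 2)) h x‖ ^ 2) volume X
      (2 * X) :=
    (((continuous_mixedSum _ h).norm.pow 2).const_mul 2).intervalIntegrable _ _
  refine (intervalIntegral.integral_mono_on (by linarith)
    (g := fun x => 2 * ‖mixedSum (zerosUpTo (X ^ 2)) h x‖ ^ 2 + 2 * (C * ell X) ^ 2)
    (intervalIntegrable_psi_gap h _ _) (hci.add intervalIntegrable_const) fun x hx => ?_).trans ?_
  · have h1 := hcut hre X h x hh hhX hx.1 hx.2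
    have h2 : |ψ (x + h) - ψ x - h| ≤ ‖mixedSum (zerosUpTo (X ^ 2)) h x‖ + C * ell X := by
      rw [← Real.norm_eq_abs, ← Complex.norm_real]
      refine le_trans (le_of_eq ?_) ((norm_sub_le _ _).trans ((add_le_add h1 le_rfl).trans
        (le_of_eq (add_comm _ _))))
      rw [add_sub_cancel_right]
    refine (sq_abs _).symm.le.trans ((pow_le_pow_left₀ (abs_nonneg _) h2 2).trans ?_)
    nlinarith [sq_nonneg (‖mixedSum (zerosUpTo (X ^ 2)) h x‖ - C * ell X)]
  rw [intervalIntegral.integral_add hci intervalIntegrable_const,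
    intervalIntegral.integral_const_mul, intervalIntegral.integral_const, smul_eq_mul]
  have hl : ell X ^ 2 ≤ 49 * Real.log X ^ 2 := by
    refine (pow_le_pow_left₀ (ell_pos X).le (FA.ExplicitFormula.ell_le_log hX) 2).trans
      (le_of_eq (by ring))
  have hm := hmean hre X h hh hhX
  calc 2 * (∫ x in X..2 * X, ‖mixedSum (zerosUpTo (X ^ 2)) h x‖ ^ 2) +
        (2 * X - X) * (2 * (C * ell X) ^ 2)
      ≤ 2 * (K * (h * X * ell X ^ 2)) + h * X * (2 * (C * ell X) ^ 2) := by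
        refine add_le_add (by linarith) (mul_le_mul_of_nonneg_right ?_ (by positivity))
        nlinarith
    _ = (2 * K + 2 * C ^ 2) * (h * X * ell X ^ 2) := by ring
    _ ≤ (2 * K + 2 * C ^ 2) * (h * X * (49 * Real.log X ^ 2)) := by gcongr
    _ = _ := by ring

end FA.SelbergShort

end
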